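/-
MAZUR / node [MZ-RH] (kernel stability of the reduction map under the Hecke operators), part 1
(helper24): THE TOWER `X₀(N l') → X₀(N)` ON THE SPECIAL FIBRE.

`k` a field, `F̃_N = modularFunctionFieldFullC k N = k(j̃(q^d) : d ∣ N) ⊆ k((q))`.
* `mzrh_alC k N l'`, `mzrh_beC k N l' : F̃_N →ₐ[k] F̃_{N l'}` : the two degeneracy maps
  (inclusion, `q ↦ q^{l'}`), the characteristic-free twins of the prelude's
  `heckeAlphaBar`, `heckeBetaBar`;
* for `k` algebraically closed of characteristic `ℓ ∤ N l'` (`ρ : ℤ_(ℓ) → k`): both maps are finite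
  and separable (MacLane's criterion `lsp_isSeparable_of_algHom`: the orders `-1`, `-l'` of
  `j̃(q)`, `j̃(q^{l'})` are prime to `ℓ`), `F̃_{N l'}` has principal divisors, hence the
  fundamental identity along `β̃` and the norm formula along `α̃`
  (`JT3/Places/TowerAlong.lean`, characteristic-free);
* `mzrh_ThetaC`, `mzrh_thetaC` : the Hecke correspondence `α̃_* β̃^*` on `Div(F̃_N)` and on
  `Pic⁰(F̃_N)`.  NO degree is computed.
Prefix `mzrh_`.
-/
import Mathlib
import Fermat.Agent.JT3.S18.ConstRed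
import Fermat.Agent.JT3.Places.TowerAlong
import Fermat.Agent.JT3.Riemann.Principal

set_option autoImplicit false
set_option linter.unusedSectionVars false
set_option linter.style.haveILetI false

noncomputable section

namespace Fermat.Agent.MZ

open ModularCurve AlgebraicCurve IntermediateField HahnSeries
open Fermat.Agent.JT3 Fermat.Agent.S24

/-! ### the two degeneracy maps on the special fibre -/

section Defs

variable (k : Type*) [Field k] (N l' : ℕ) [NeZero N] [NeZero l']

/-- `α̃ : F̃_N → F̃_{N l'}`, the inclusion. -/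
def mzrh_alC : modularFunctionFieldFullC k N →ₐ[k] modularFunctionFieldFullC k (N * l') :=
  IntermediateField.inclusion (full_degeneracyC_le k (dvd_mul_right N l'))

@[simp]
theorem mzrh_coe_alC (x : modularFunctionFieldFullC k N) :
    (mzrh_alC k N l' x : LaurentSeries k) = (x : LaurentSeries k) :=
  IntermediateField.coe_inclusion _ x

/-- `β̃ : F̃_N → F̃_{N l'}`, `q ↦ q^{l'}`, as a ring homomorphism. -/
def mzrh_beCRingHom : modularFunctionFieldFullC k N →+* modularFunctionFieldFullC k (N * l') where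
  toFun x := ⟨qExpand k l' (x : LaurentSeries k),
    full_degeneracyC_map_le k N l' ⟨(x : LaurentSeries k), x.2, rfl⟩⟩
  map_one' := Subtype.ext (map_one (qExpand k l'))
  map_mul' _ _ := Subtype.ext (map_mul (qExpand k l') _ _)
  map_zero' := Subtype.ext (map_zero (qExpand k l'))
  map_add' _ _ := Subtype.ext (map_add (qExpand k l') _ _)

/-- `β̃ : F̃_N → F̃_{N l'}`, `q ↦ q^{l'}`. -/
def mzrh_beC : modularFunctionFieldFullC k N →ₐ[k] modularFunctionFieldFullC k (N * l') :=
  { mzrh_beCRingHom k N l' with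
    commutes' := fun a => Subtype.ext <| by
      show qExpand k l' (algebraMap k (LaurentSeries k) a) = algebraMap k (LaurentSeries k) a
      rw [algebraMap_laurentSeries_eq_single, qExpand_single, mul_zero] }

@[simp]
theorem mzrh_coe_beC (x : modularFunctionFieldFullC k N) :
    (mzrh_beC k N l' x : LaurentSeries k) = qExpand k l' (x : LaurentSeries k) :=
  rfl

theorem mzrh_alC_j : mzrh_alC k N l' (jcr_j (k := k) N) = jcr_j (k := k) (N * l') :=
  Subtype.ext rfl

end Defs

/-! ### separability along a homomorphism -/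

section SepAlong

variable {K F F' : Type*} [Field K] [Field F] [Field F'] [Algebra K F] [Algebra K F']

/-- If every element of `F'` is separable over `K(φ x)`, then `F'` is separable over `F` along
`φ`. -/
theorem mzrh_separableAlong_of_adjoin (φ : F →ₐ[K] F') (x : F)
    (h : ∀ y : F', IsSeparable K⟮φ x⟯ y) : ptw_SeparableAlong φ := by
  letI := algebraAlong φ
  haveI := isScalarTower_along φ
  change Algebra.IsSeparable F F'
  refine ⟨fun y => ?_⟩
  -- the map `K(φ x) → F`
  have hle : K⟮φ x⟯ ≤ φ.fieldRange := adjoin_simple_le_iff.mpr ⟨x, rfl⟩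
  let e : F ≃ₐ[K] φ.fieldRange := AlgEquiv.ofInjectiveField φ
  let ψ : K⟮φ x⟯ →+* F :=
    (e.symm : φ.fieldRange →+* F).comp (IntermediateField.inclusion hle : K⟮φ x⟯ →+* φ.fieldRange)
  have hψ : ∀ c : K⟮φ x⟯, φ (ψ c) = (c : F') := by
    intro c
    have h1 : (e (ψ c) : F') = φ (ψ c) := rfl
    rw [← h1]
    show ((e (e.symm (IntermediateField.inclusion hle c)) : φ.fieldRange) : F') = c
    rw [AlgEquiv.apply_symm_apply]
    rfl
  set p := minpoly K⟮φ x⟯ y with hp
  have hsep : p.Separable := h y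
  have hq : (p.map ψ).Separable := hsep.map
  have hroot : Polynomial.aeval y (p.map ψ) = 0 := by
    rw [Polynomial.aeval_def, Polynomial.eval₂_map]
    have hcomp : (algebraMap F F').comp ψ = algebraMap K⟮φ x⟯ F' := by
      ext c
      exact hψ c
    rw [hcomp, ← Polynomial.aeval_def, hp, minpoly.aeval]
  exact hq.of_dvd (minpoly.dvd F y hroot)

end SepAlong

/-! ### the tower in characteristic `ℓ ∤ N l'` -/

section Tower

variable {k : Type*} [Field k] (N l' : ℕ) [NeZero N] [NeZero l']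
  {ℓ : ℕ} [hℓ : Fact ℓ.Prime] [CharP k ℓ] [IsAlgClosed k]
  (ρ : ↥(GaloisRep.ratLocalizedAt ℓ) →+* k) (hℓN : ¬ ℓ ∣ N) (hℓl : ¬ ℓ ∣ l')

include hℓN hℓl in
theorem mzrh_not_dvd_mul : ¬ ℓ ∣ N * l' := fun h =>
  (hℓ.out.dvd_mul.mp h).elim hℓN hℓl

include ρ hℓN hℓl in
/-- `j̃` is a separating generator of `F̃_{N l'}`. -/
theorem mzrh_sepGenC : rt_IsSepGen k (jcr_j (k := k) (N * l')) :=
  jcr_isSepGen (N * l') (mzrh_not_dvd_mul N l' hℓN hℓl) ρ

include ρ hℓN hℓl in
/-- `F̃_{N l'}` has principal divisors. -/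
theorem mzrh_hasPrincipalDivisorsC :
    HasPrincipalDivisors k (modularFunctionFieldFullC k (N * l')) :=
  rt_hasPrincipalDivisors (mzrh_sepGenC N l' ρ hℓN hℓl)

include ρ hℓN hℓl in
/-- `α̃` is finite. -/
theorem mzrh_finiteAlong_alC : FiniteAlong k (mzrh_alC k N l') := by
  haveI : FiniteDimensional k⟮mzrh_alC k N l' (jcr_j (k := k) N)⟯
      (modularFunctionFieldFullC k (N * l')) := by
    rw [mzrh_alC_j]; exact (mzrh_sepGenC N l' ρ hℓN hℓl).2.1
  exact ptw_finiteAlong_of_adjoin (mzrh_alC k N l') (jcr_j (k := k) N)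

include ρ hℓN in
theorem mzrh_beC_j_transcendental :
    Transcendental k (mzrh_beC k N l' (jcr_j (k := k) N)) := by
  intro h
  exact (jcr_isSepGen (k := k) N hℓN ρ).1
    ((isAlgebraic_algHom_iff (mzrh_beC k N l') (mzrh_beC k N l').injective).mp h)

include ρ hℓN hℓl in
/-- `β̃` is finite. -/
theorem mzrh_finiteAlong_beC : FiniteAlong k (mzrh_beC k N l') := by
  haveI : FiniteDimensional k⟮jcr_j (k := k) (N * l')⟯ (modularFunctionFieldFullC k (N * l')) :=
    (mzrh_sepGenC N l' ρ hℓN hℓl).2.1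
  haveI : FiniteDimensional k⟮mzrh_beC k N l' (jcr_j (k := k) N)⟯
      (modularFunctionFieldFullC k (N * l')) :=
    hw_finiteDimensional_adjoin (jcr_j (k := k) (N * l')) (mzrh_beC_j_transcendental N l' ρ hℓN)
  exact ptw_finiteAlong_of_adjoin (mzrh_beC k N l') (jcr_j (k := k) N)

include ρ hℓN hℓl in
/-- `α̃` is separable. -/
theorem mzrh_separableAlong_alC : ptw_SeparableAlong (mzrh_alC k N l') := by
  refine mzrh_separableAlong_of_adjoin (mzrh_alC k N l') (jcr_j (k := k) N) fun y => ?_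
  rw [mzrh_alC_j]
  haveI := (mzrh_sepGenC (k := k) N l' ρ hℓN hℓl).2.2
  exact Algebra.IsSeparable.isSeparable k⟮jcr_j (k := k) (N * l')⟯ y

include ρ hℓN hℓl in
/-- `β̃` is separable: the order `-l'` of `j̃(q^{l'})` is prime to `ℓ`. -/
theorem mzrh_separableAlong_beC : ptw_SeparableAlong (mzrh_beC k N l') := by
  refine mzrh_separableAlong_of_adjoin (mzrh_beC k N l') (jcr_j (k := k) N) fun y => ?_
  have htr := mzrh_beC_j_transcendental (k := k) N l' ρ hℓN
  have hx0 : mzrh_beC k N l' (jcr_j (k := k) N) ≠ 0 := by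
    intro h0
    apply htr
    rw [h0]
    exact isAlgebraic_zero
  haveI : FiniteDimensional k⟮jcr_j (k := k) (N * l')⟯ (modularFunctionFieldFullC k (N * l')) :=
    (mzrh_sepGenC N l' ρ hℓN hℓl).2.1
  haveI : FiniteDimensional k⟮mzrh_beC k N l' (jcr_j (k := k) N)⟯
      (modularFunctionFieldFullC k (N * l')) :=
    hw_finiteDimensional_adjoin (jcr_j (k := k) (N * l')) htr
  have halg : Algebra.IsAlgebraic k⟮mzrh_beC k N l' (jcr_j (k := k) N)⟯
      (modularFunctionFieldFullC k (N * l')) := Algebra.IsAlgebraic.of_finite _ _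
  refine lsp_isSeparable_of_algHom ℓ (modularFunctionFieldFullC k (N * l')).val hx0 ?_
    (halg.isAlgebraic y)
  have h1 : (modularFunctionFieldFullC k (N * l')).val (mzrh_beC k N l' (jcr_j (k := k) N))
      = qExpand k l' (jqModC k) := rfl
  rw [h1, Fermat.Agent.S28.fs_qExpand_order, jcr_order_jq, mul_neg, mul_one, dvd_neg]
  intro h
  exact hℓl (Int.natCast_dvd_natCast.mp h)

include ρ hℓN hℓl in
theorem mzrh_alC_isIntegral : (mzrh_alC k N l').toRingHom.IsIntegral :=
  ptw_isIntegral_of_finiteAlong _ (mzrh_finiteAlong_alC N l' ρ hℓN hℓl)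

include ρ hℓN hℓl in
theorem mzrh_beC_isIntegral : (mzrh_beC k N l').toRingHom.IsIntegral :=
  ptw_isIntegral_of_finiteAlong _ (mzrh_finiteAlong_beC N l' ρ hℓN hℓl)

include ρ hℓN hℓl in
/-- The fundamental identity along `β̃`. -/
theorem mzrh_fundamentalIdentityAlong_beC
    [HasPrincipalDivisors k (modularFunctionFieldFullC k (N * l'))] :
    FundamentalIdentityAlong k (mzrh_beC k N l') (mzrh_beC_isIntegral N l' ρ hℓN hℓl) := by
  haveI : FiniteDimensional k⟮jcr_j (k := k) N⟯ (modularFunctionFieldFullC k N) :=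
    (jcr_isSepGen (k := k) N hℓN ρ).2.1
  haveI : FiniteDimensional k⟮jcr_j (k := k) (N * l')⟯ (modularFunctionFieldFullC k (N * l')) :=
    (mzrh_sepGenC N l' ρ hℓN hℓl).2.1
  haveI : Algebra.IsAlgebraic k⟮jcr_j (k := k) N⟯ (modularFunctionFieldFullC k N) :=
    Algebra.IsAlgebraic.of_finite _ _
  haveI : Algebra.IsAlgebraic k⟮jcr_j (k := k) (N * l')⟯
      (modularFunctionFieldFullC k (N * l')) := Algebra.IsAlgebraic.of_finite _ _
  exact ptw_fundamentalIdentityAlong _ _ (mzrh_finiteAlong_beC N l' ρ hℓN hℓl)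
    (mzrh_separableAlong_beC N l' ρ hℓN hℓl) (jcr_j (k := k) N) (jcr_j (k := k) (N * l'))

include ρ hℓN hℓl in
/-- The norm formula along `α̃`. -/
theorem mzrh_normFormulaAlong_alC
    [HasPrincipalDivisors k (modularFunctionFieldFullC k (N * l'))] :
    NormFormulaAlong k (mzrh_alC k N l') (mzrh_finiteAlong_alC N l' ρ hℓN hℓl) := by
  haveI : FiniteDimensional k⟮jcr_j (k := k) N⟯ (modularFunctionFieldFullC k N) :=
    (jcr_isSepGen (k := k) N hℓN ρ).2.1
  haveI : FiniteDimensional k⟮jcr_j (k := k) (N * l')⟯ (modularFunctionFieldFullC k (N * l')) :=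
    (mzrh_sepGenC N l' ρ hℓN hℓl).2.1
  haveI : Algebra.IsAlgebraic k⟮jcr_j (k := k) N⟯ (modularFunctionFieldFullC k N) :=
    Algebra.IsAlgebraic.of_finite _ _
  haveI : Algebra.IsAlgebraic k⟮jcr_j (k := k) (N * l')⟯
      (modularFunctionFieldFullC k (N * l')) := Algebra.IsAlgebraic.of_finite _ _
  exact ptw_normFormulaAlong _ (mzrh_finiteAlong_alC N l' ρ hℓN hℓl)
    (mzrh_separableAlong_alC N l' ρ hℓN hℓl) (jcr_j (k := k) N) (jcr_j (k := k) (N * l'))

end Tower

/-! ### the package -/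

section Package

variable (k : Type*) [Field k] (N l' : ℕ) [NeZero N] [NeZero l']

/-- The inputs of the Hecke correspondence `α̃_* β̃^*` on the special fibre (the twin of the
prelude's `HeckeInputsAlong`). -/
def mzrh_HeckeInputsC : Prop :=
  ∃ (_ : (mzrh_alC k N l').toRingHom.IsIntegral) (hβ : (mzrh_beC k N l').toRingHom.IsIntegral)
    (_ : HasPrincipalDivisors k (modularFunctionFieldFullC k (N * l')))
    (hfin : FiniteAlong k (mzrh_alC k N l')),
    FundamentalIdentityAlong k (mzrh_beC k N l') hβ ∧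
      NormFormulaAlong k (mzrh_alC k N l') hfin

variable {k}

/-- **The Hecke inputs hold on the special fibre** (`k` algebraically closed of characteristic
`ℓ ∤ N l'`). -/
theorem mzrh_heckeInputsC {ℓ : ℕ} [Fact ℓ.Prime] [CharP k ℓ] [IsAlgClosed k]
    (ρ : ↥(GaloisRep.ratLocalizedAt ℓ) →+* k) (hℓN : ¬ ℓ ∣ N) (hℓl : ¬ ℓ ∣ l') :
    mzrh_HeckeInputsC k N l' := by
  haveI := mzrh_hasPrincipalDivisorsC (k := k) N l' ρ hℓN hℓl
  exact ⟨mzrh_alC_isIntegral N l' ρ hℓN hℓl, mzrh_beC_isIntegral N l' ρ hℓN hℓl, inferInstance,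
    mzrh_finiteAlong_alC N l' ρ hℓN hℓl, mzrh_fundamentalIdentityAlong_beC N l' ρ hℓN hℓl,
    mzrh_normFormulaAlong_alC N l' ρ hℓN hℓl⟩

end Package

end Fermat.Agent.MZ

end
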