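/-
MAZUR / node [MZ-RH] (kernel stability of the reduction map under the Hecke operators), part 2
(helper24): FROM THE PUSH-FORWARD COMPATIBILITY OF THE PLACE REDUCTIONS TO `red ∘ T_l' = T̃_l' ∘ red`.

`A` a place of `Q̄` over `ℓ ∤ N l'`, `r`, `r'` the place reductions at the levels `N`, `N l'`,
`α, β : F̄_N → F̄_{N l'}` and `α̃, β̃ : F̃_N → F̃_{N l'}` the degeneracy maps.  Hypothesis
`(PUSH-div)` (`mzrh_PushDiv`): `r_* (α_* D') = α̃_* (r'_* D')` for every divisor `D'` of degree `0` of
`F̄_{N l'}`.

For a `q`-integral function `y` of level `N` (with `ȳ ≠ 0`), `D = div y`, `E = div ȳ`: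
`β^* D = div (y(q^{l'}))`, `y(q^{l'})` is `q`-integral of level `N l'` with reduction `ȳ(q^{l'})`,
hence `r'_* (β^* D) = div (ȳ(q^{l'})) = β̃^* E` and, by `(PUSH-div)`,
`r_* (α_* β^* D) = α̃_* β̃^* E`.  This is the hypothesis `hS` of the transfer principle
`est_transfer_pic0`; so `red ∘ T_{l'} = (α̃_* β̃^*) ∘ red` on `J₀(N)`, and the kernel of `red` is
stable under `T_{l'}`.  No norm is computed on the special fibre.
Prefix `mzrh_`.
-/
import Mathlib
import Fermat.Agent.MZ.RH.TowerModL
import Fermat.Agent.JT3.ES.ES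

set_option autoImplicit false
set_option synthInstance.maxHeartbeats 400000
set_option maxHeartbeats 1000000
set_option linter.unusedSectionVars false
set_option linter.style.haveILetI false

noncomputable section

namespace Fermat.Agent.MZ

open ModularCurve AlgebraicCurve HahnSeries
open Fermat.Agent.JT3

local notation "Qb" => AlgebraicClosure ℚ

/-! ### generic: the pull-back of the divisor of a function -/

section Pull

variable {K F F' : Type*} [Field K] [Field F] [Field F'] [Algebra K F] [Algebra K F']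
  [HasPrincipalDivisors K F']

/-- `φ^* (div f) = div (φ f)`. -/
theorem mzrh_pullbackAlong_div (φ : F →ₐ[K] F') (hφ : φ.toRingHom.IsIntegral) (f : F)
    (D : Divisor K F) (hD : ∀ v : Place K F, D v = v.ord f) (w : Place K F') :
    Divisor.pullbackAlong φ hφ D w = w.ord (φ f) := by
  rw [Divisor.pullbackAlong_apply, hD, Place.ord_restrictAlong φ hφ w f]

end Pull

/-! ### `q ↦ q^{l'}` on integral functions -/

section IntFun

variable {A : ValuationSubring Qb} {N : ℕ} (l' : ℕ) [NeZero N] [NeZero l']

local notation "kA" => IsLocalRing.ResidueField A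

/-- `y(q^{l'})` as an integral function of level `N l'`. -/
def mzrh_intBeta (y : jt_IntFun A N) : jt_IntFun A (N * l') :=
  ⟨qExpand A l' y.1, by
    refine ⟨?_, ?_, ?_⟩
    · rw [coeffMap_qExpand]
      exact (heckeBetaBar Qb N l' (jt_gen y)).2
    · rw [coeffMap_qExpand]
      exact (mzrh_beC kA N l' (jt_red y)).2
    · rw [coeffMap_qExpand]
      intro h0
      exact y.2.2.2 (qExpand_injective l' (by rw [h0, map_zero]))⟩

theorem mzrh_gen_intBeta (y : jt_IntFun A N) :
    jt_gen (mzrh_intBeta l' y) = heckeBetaBar Qb N l' (jt_gen y) :=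
  Subtype.ext (coeffMap_qExpand _ _ _)

theorem mzrh_red_intBeta (y : jt_IntFun A N) :
    jt_red (mzrh_intBeta l' y) = mzrh_beC kA N l' (jt_red y) :=
  Subtype.ext (coeffMap_qExpand _ _ _)

end IntFun

/-! ### the transfer -/

section Main

variable {A : ValuationSubring Qb} {N l' : ℕ} [NeZero N] [NeZero l']

local notation "kA" => IsLocalRing.ResidueField A

/-- **(PUSH-div)**: the place reductions at the levels `N` and `N l'` are compatible with the
push-forward along `α`, on the divisors of degree `0`. -/
def mzrh_PushDiv (h : ReductionInputsModL A N) (h' : ReductionInputsModL A (N * l'))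
    (hα : HeckeAlphaBarIntegral Qb N l') (hαC : (mzrh_alC kA N l').toRingHom.IsIntegral) : Prop :=
  ∀ D' ∈ Divisor.degZero (K := Qb) (F := modularFunctionFieldBar (N * l')),
    Finsupp.mapDomain (placeReductionModL h)
        (Divisor.pushforwardAlong (heckeAlphaBar Qb N l') hα D')
      = Divisor.pushforwardAlong (mzrh_alC kA N l') hαC
          (Finsupp.mapDomain (placeReductionModL h') D')

/-- **The congruence `red ∘ T_{l'} = T̃_{l'} ∘ red`** on `J₀(N)`, `l'` different from the residue
characteristic, from `(PUSH-div)`. -/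
theorem mzrh_red_hecke_of_push (h : ReductionInputsModL A N)
    (h' : ReductionInputsModL A (N * l'))
    (hR : est_Riemann Qb (modularFunctionFieldBar N))
    (hα : HeckeAlphaBarIntegral Qb N l') (hβ : HeckeBetaBarIntegral Qb N l')
    [HasPrincipalDivisors Qb (laurentBaseChange Qb (modularFunctionFieldFull (N * l')))]
    (hFI : FundamentalIdentityAlong Qb (heckeBetaBar Qb N l') hβ)
    (hfin : FiniteAlong Qb (heckeAlphaBar Qb N l'))
    (hN : NormFormulaAlong Qb (heckeAlphaBar Qb N l') hfin)
    (hαC : (mzrh_alC kA N l').toRingHom.IsIntegral)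
    (hβC : (mzrh_beC kA N l').toRingHom.IsIntegral)
    [HasPrincipalDivisors kA (modularFunctionFieldFullC kA (N * l'))]
    (hFIC : FundamentalIdentityAlong kA (mzrh_beC kA N l') hβC)
    (hfinC : FiniteAlong kA (mzrh_alC kA N l'))
    (hNC : NormFormulaAlong kA (mzrh_alC kA N l') hfinC)
    (hdegC : ∀ w : Place kA (modularFunctionFieldFullC kA N), w.deg = 1)
    (hpush : mzrh_PushDiv h h' hα hαC) (x : JZero N) :
    reductionModL A N (heckePic0Bar hα hβ hFI hfin hN x)
      = Pic0.correspondence (mzrh_beC kA N l') (mzrh_alC kA N l') hβC hαC hFIC hfinC hNC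
          (reductionModL A N x) := by
  have hS : ∀ (y : jt_IntFun A N)
      (D : Divisor Qb (modularFunctionFieldBar N))
      (E : Divisor kA (modularFunctionFieldFullC kA N)),
      (∀ P, D P = P.ord (jt_gen y)) → (∀ Q, E Q = Q.ord (jt_red y)) →
        Finsupp.mapDomain (placeReductionModL h) (heckeDivBar hα hβ D)
          = Divisor.correspondence (mzrh_beC kA N l') (mzrh_alC kA N l') hβC hαC E := by
    intro y D E hD hE
    -- `D` has degree `0`
    have hD0 : D ∈ Divisor.degZero (K := Qb) (F := modularFunctionFieldBar N) := by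
      obtain ⟨Df, hDf, hdeg⟩ := hR.prin (jt_gen y) (jt_gen_ne_zero y)
      have e : D = Df := by
        ext v
        rw [hD, hDf]
      rw [Divisor.mem_degZero, e, hdeg]
    set D' := Divisor.pullbackAlong (heckeBetaBar Qb N l') hβ D with hD'
    have hD'0 : D' ∈ Divisor.degZero (K := Qb) (F := modularFunctionFieldBar (N * l')) :=
      Divisor.pullbackAlong_mem_degZero _ hβ hFI hD0
    have hD'ord : ∀ P', D' P' = P'.ord (jt_gen (mzrh_intBeta l' y)) := by
      intro P'
      rw [mzrh_gen_intBeta]
      exact mzrh_pullbackAlong_div _ hβ (jt_gen y) D hD P'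
    -- the reduction of `D'`
    have hred : Finsupp.mapDomain (placeReductionModL h') D'
        = Divisor.pullbackAlong (mzrh_beC kA N l') hβC E := by
      ext Q'
      have h1 := (isPlaceReductionModL_placeReductionModL h').2 (mzrh_intBeta l' y).1
        (mzrh_intBeta l' y).2.1 (mzrh_intBeta l' y).2.2.1 (mzrh_intBeta l' y).2.2.2 D' hD'ord Q'
      rw [h1]
      have h2 := mzrh_pullbackAlong_div (mzrh_beC kA N l') hβC (jt_red y) E hE Q'
      rw [h2, ← mzrh_red_intBeta]
      rfl
    show Finsupp.mapDomain (placeReductionModL h)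
        (Divisor.pushforwardAlong (heckeAlphaBar Qb N l') hα D') = _
    rw [hpush D' hD'0, hred]
    rfl
  exact est_transfer_pic0 h hR (heckeDivBar hα hβ)
    (Divisor.correspondence (mzrh_beC kA N l') (mzrh_alC kA N l') hβC hαC)
    (max (finrankAlong Qb (heckeBetaBar Qb N l')) (finrankAlong kA (mzrh_beC kA N l')))
    (fun v => by
      rw [heckeDivBar, ese_norm_correspondence_single _ _ hβ hα hFI hR.deg_one v]
      exact le_max_left _ _)
    (fun w => by
      rw [ese_norm_correspondence_single _ _ hβC hαC hFIC hdegC w]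
      exact le_max_right _ _)
    hS
    (heckePic0Bar hα hβ hFI hfin hN)
    (fun D => ⟨Divisor.correspondence_mem_degZero _ _ hβ hα hFI D.2, rfl⟩)
    (Pic0.correspondence (mzrh_beC kA N l') (mzrh_alC kA N l') hβC hαC hFIC hfinC hNC)
    (fun E => ⟨Divisor.correspondence_mem_degZero _ _ hβC hαC hFIC E.2, rfl⟩) x

/-- **Kernel stability** from `(PUSH-div)`. -/
theorem mzrh_ker_stable_of_push (h : ReductionInputsModL A N)
    (h' : ReductionInputsModL A (N * l'))
    (hR : est_Riemann Qb (modularFunctionFieldBar N))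
    (hα : HeckeAlphaBarIntegral Qb N l') (hβ : HeckeBetaBarIntegral Qb N l')
    [HasPrincipalDivisors Qb (laurentBaseChange Qb (modularFunctionFieldFull (N * l')))]
    (hFI : FundamentalIdentityAlong Qb (heckeBetaBar Qb N l') hβ)
    (hfin : FiniteAlong Qb (heckeAlphaBar Qb N l'))
    (hN : NormFormulaAlong Qb (heckeAlphaBar Qb N l') hfin)
    (hC : mzrh_HeckeInputsC kA N l')
    (hdegC : ∀ w : Place kA (modularFunctionFieldFullC kA N), w.deg = 1)
    (hpush : ∀ hαC : (mzrh_alC kA N l').toRingHom.IsIntegral, mzrh_PushDiv h h' hα hαC)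
    (x : JZero N) (hx : reductionModL A N x = 0) :
    reductionModL A N (heckePic0Bar hα hβ hFI hfin hN x) = 0 := by
  obtain ⟨hαC, hβC, hPC, hfinC, hFIC, hNC⟩ := hC
  haveI := hPC
  rw [mzrh_red_hecke_of_push h h' hR hα hβ hFI hfin hN hαC hβC hFIC hfinC hNC hdegC (hpush hαC) x,
    hx, map_zero]

end Main

end Fermat.Agent.MZ

end
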