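/-
MAZUR / node [MZ-RH] (kernel stability of the reduction map under the Hecke operators), part 3
(helper24): THE ASSEMBLY.

`mzrh_SeamPush` : the push-forward compatibility `(PUSH-div)` of the place reductions at the
levels `N`, `N l'` (`ℓ ∤ N l'`, `l' ≠ ℓ`), for the prelude's `placeReductionModL`
(producer: `MZ/RH/Push.lean`).
`mzrh_main_of_push : mzrh_SeamPush → mzt_RH_stmt` : the seam `[MZ-RH]` of `MZ/Top/Seams.lean`:
`red_A x = 0 ⟹ red_A (T_{l'} x) = 0`.
Prefix `mzrh_`.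
-/
import Mathlib
import Fermat.Agent.MZ.RH.Transfer
import Fermat.Agent.MZ.Top.Seams
import Fermat.Agent.JT3.Hecke.InputsBar
import Fermat.Agent.JT3.ES.RiemannFbar
import Fermat.Agent.JT3.PlaceMap.WireNodeE

set_option autoImplicit false
set_option synthInstance.maxHeartbeats 400000
set_option maxHeartbeats 1000000
set_option linter.unusedSectionVars false
set_option linter.style.haveILetI false

noncomputable section

namespace Fermat.Agent.MZ

open ModularCurve AlgebraicCurve HahnSeries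
open Fermat.Agent.JT3

local notation "Qb" => AlgebraicClosure ℚ

/-- **Seam (PUSH-div)**: for `A ∣ ℓ`, `ℓ ∤ N l'`, the place reductions at the levels `N` and
`N l'` are compatible with the push-forward along `α`, on the divisors of degree `0`. -/
def mzrh_SeamPush : Prop :=
  ∀ (N l' ℓ : ℕ) [NeZero N] [NeZero l'], ℓ.Prime → l'.Prime → ¬ ℓ ∣ N → ¬ l' ∣ N → l' ≠ ℓ →
    ∀ (A : ValuationSubring Qb), A.LiesOverPrime ℓ →
    ∀ (h : ReductionInputsModL A N) (h' : ReductionInputsModL A (N * l'))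
      (hα : HeckeAlphaBarIntegral Qb N l')
      (hαC : (mzrh_alC (IsLocalRing.ResidueField A) N l').toRingHom.IsIntegral),
      mzrh_PushDiv h h' hα hαC

/-- **[MZ-RH]** from the seam `(PUSH-div)`. -/
theorem mzrh_main_of_push (hP : mzrh_SeamPush) : mzt_RH_stmt := by
  intro N _ ℓ hℓ hℓN ℓ' hℓ'N hne A hA x hx
  haveI : NeZero (ℓ' : ℕ) := ⟨ℓ'.2.ne_zero⟩
  haveI : Fact ℓ.Prime := ⟨hℓ⟩
  have hℓl : ¬ ℓ ∣ (ℓ' : ℕ) := fun hd =>
    hne ((Nat.prime_dvd_prime_iff_eq hℓ ℓ'.2).mp hd).symm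
  have hℓM : ¬ ℓ ∣ N * (ℓ' : ℕ) := mzrh_not_dvd_mul N ℓ' hℓN hℓl
  have h : ReductionInputsModL A N := rpw_nodeE N ℓ hℓ hℓN A hA
  have h' : ReductionInputsModL A (N * (ℓ' : ℕ)) := rpw_nodeE (N * ℓ') ℓ hℓ hℓM A hA
  haveI := jcr_charP A hA
  haveI := jcr_isAlgClosed A
  have hC : mzrh_HeckeInputsC (IsLocalRing.ResidueField A) N ℓ' :=
    mzrh_heckeInputsC N ℓ' (jcr_rho A hA) hℓN hℓl
  have hdegC : ∀ w : Place (IsLocalRing.ResidueField A)
      (modularFunctionFieldFullC (IsLocalRing.ResidueField A) N), w.deg = 1 :=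
    rpg_deg_eq_one_of_funField (rpm_funFieldRed A N hℓN hA)
  have e : heckeOperatorBar N ℓ' x
      = heckePic0Bar (hib_alphaIntegral N ℓ') (hib_betaIntegral N ℓ')
          (hib_fundamentalIdentityAlong_beta N ℓ') (hib_finiteAlong_alpha N ℓ')
          (hib_normFormulaAlong_alpha N ℓ') x := by
    show heckeOperatorAlong Qb N ℓ' x = _
    rw [hib_heckeOperatorAlong_eq]
  rw [e]
  exact mzrh_ker_stable_of_push h h' (est_riemann_fbar N) (hib_alphaIntegral N ℓ')
    (hib_betaIntegral N ℓ') (hib_fundamentalIdentityAlong_beta N ℓ') (hib_finiteAlong_alpha N ℓ')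
    (hib_normFormulaAlong_alpha N ℓ') hC hdegC
    (fun hαC => hP N ℓ' ℓ hℓ ℓ'.2 hℓN hℓ'N hne A hA h h' (hib_alphaIntegral N ℓ') hαC) x hx

end Fermat.Agent.MZ

end
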