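/-
[MZ-RH] (P1): UNIQUENESS OF THE PLACE REDUCTION ON `Div⁰`, BY RIGIDITY.

Any two maps `r₁ r₂ : Pl(Q̄(X₀(N))) → Pl(F̃_N)` satisfying the specification
`IsPlaceReductionModL A N` induce THE SAME map on divisors of degree `0`:
`Θᵢ := (rᵢ)_*` is bounded by `1` on the places, both send `div y` to `div ȳ` for the
`q`-integral functions `y` with `ȳ ≠ 0`, these divisors generate the principal divisors
(`PrincipalGeneratedByIntegral`), and Riemann's inequality holds on `Q̄(X₀(N))`
(`est_Riemann`).  Hence the rigidity lemma `rg_eq_on_degZero` applies.  No divisibility of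
`J₀(N)` is used.

Consequence: `placeReductionModL h` (an opaque `Classical.choose`) may be replaced on `Div⁰`, and
`reductionModL` on `J₀(N)`, by ANY explicit place reduction.
-/
import Mathlib
import Fermat.Agent.JT3.ES.RiemannFbar

set_option autoImplicit false
set_option synthInstance.maxHeartbeats 400000
set_option maxHeartbeats 1000000

noncomputable section

namespace Fermat.Agent.MZ

open ModularCurve AlgebraicCurve HahnSeries Fermat.Agent.JT3

variable {A : ValuationSubring (AlgebraicClosure ℚ)} {N : ℕ}

/-- **(P1), general form.**  Two place reductions agree on the divisors of degree `0`. -/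
theorem mzrh_u_mapDomain_eq
    (hgen : PrincipalGeneratedByIntegral A (IsLocalRing.residue A) N)
    (hR : est_Riemann (AlgebraicClosure ℚ) (modularFunctionFieldBar N))
    {r₁ r₂ : Place (AlgebraicClosure ℚ) (modularFunctionFieldBar N) →
      Place (IsLocalRing.ResidueField A)
        (modularFunctionFieldFullC (IsLocalRing.ResidueField A) N)}
    (h₁ : IsPlaceReductionModL A N r₁) (h₂ : IsPlaceReductionModL A N r₂) :
    ∀ D ∈ Divisor.degZero (K := AlgebraicClosure ℚ) (F := modularFunctionFieldBar N),
      Finsupp.mapDomain r₁ D = Finsupp.mapDomain r₂ D := by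
  obtain ⟨g, hg⟩ := hR.riemann
  obtain ⟨P₀⟩ := hR.nonempty
  have key := rg_eq_on_degZero
    (Finsupp.mapDomain.addMonoidHom r₁ :
      Divisor (AlgebraicClosure ℚ) (modularFunctionFieldBar N) →+
        Divisor (IsLocalRing.ResidueField A)
          (modularFunctionFieldFullC (IsLocalRing.ResidueField A) N))
    (Finsupp.mapDomain.addMonoidHom r₂) 1
    (fun v => by
      rw [Finsupp.mapDomain.addMonoidHom_apply, Finsupp.mapDomain_single, rg_norm_single]
      simp)
    (fun v => by
      rw [Finsupp.mapDomain.addMonoidHom_apply, Finsupp.mapDomain_single, rg_norm_single]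
      simp)
    (integralPrincipalDivisors A (IsLocalRing.residue A) N) hgen
    (by
      rintro D ⟨y, hy, hyk, hne, hDy⟩
      rw [Finsupp.mapDomain.addMonoidHom_apply, Finsupp.mapDomain.addMonoidHom_apply]
      ext Q
      rw [h₁.2 y hy hyk hne D hDy Q, h₂.2 y hy hyk hne D hDy Q])
    hR.deg_one P₀ g hR.prin hg
  intro D hD
  have := key D hD
  rwa [Finsupp.mapDomain.addMonoidHom_apply, Finsupp.mapDomain.addMonoidHom_apply] at this

/-- **(P1)**: on `Div⁰` the chosen `placeReductionModL h` agrees with any place reduction `r`. -/
theorem mzrh_u_placeReductionModL_eq (h : ReductionInputsModL A N)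
    (hR : est_Riemann (AlgebraicClosure ℚ) (modularFunctionFieldBar N))
    {r : Place (AlgebraicClosure ℚ) (modularFunctionFieldBar N) →
      Place (IsLocalRing.ResidueField A)
        (modularFunctionFieldFullC (IsLocalRing.ResidueField A) N)}
    (hr : IsPlaceReductionModL A N r) :
    ∀ D ∈ Divisor.degZero (K := AlgebraicClosure ℚ) (F := modularFunctionFieldBar N),
      Finsupp.mapDomain (placeReductionModL h) D = Finsupp.mapDomain r D :=
  mzrh_u_mapDomain_eq h.choose_spec.2 hR (isPlaceReductionModL_placeReductionModL h) hr

/-- (P1) with the Riemann package of `Q̄(X₀(N))` plugged in. -/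
theorem mzrh_u_placeReductionModL_eq' [NeZero N] (h : ReductionInputsModL A N)
    {r : Place (AlgebraicClosure ℚ) (modularFunctionFieldBar N) →
      Place (IsLocalRing.ResidueField A)
        (modularFunctionFieldFullC (IsLocalRing.ResidueField A) N)}
    (hr : IsPlaceReductionModL A N r) :
    ∀ D ∈ Divisor.degZero (K := AlgebraicClosure ℚ) (F := modularFunctionFieldBar N),
      Finsupp.mapDomain (placeReductionModL h) D = Finsupp.mapDomain r D :=
  mzrh_u_placeReductionModL_eq h (est_riemann_fbar N) hr

/-- **(P1), Jacobian level**: `reductionModL` is computed by ANY place reduction `r`. -/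
theorem mzrh_u_reductionModL_mk (h : ReductionInputsModL A N)
    (hR : est_Riemann (AlgebraicClosure ℚ) (modularFunctionFieldBar N))
    {r : Place (AlgebraicClosure ℚ) (modularFunctionFieldBar N) →
      Place (IsLocalRing.ResidueField A)
        (modularFunctionFieldFullC (IsLocalRing.ResidueField A) N)}
    (hr : IsPlaceReductionModL A N r)
    (D : Divisor.degZero (K := AlgebraicClosure ℚ) (F := modularFunctionFieldBar N)) :
    reductionModL A N (Pic0.mk D) = Pic0.mk (reductionDegZeroAlong r hr.1 D) := by
  rw [reductionModL_mk h]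
  congr 1
  apply Subtype.ext
  rw [coe_reductionDegZeroAlong, coe_reductionDegZeroAlong]
  exact mzrh_u_placeReductionModL_eq h hR hr D D.2

/-- (P1), Jacobian level, in the form used for kernels: `red [D] = 0` iff `r_* D` is principal,
for ANY place reduction `r`. -/
theorem mzrh_u_reductionModL_eq_zero_iff (h : ReductionInputsModL A N)
    (hR : est_Riemann (AlgebraicClosure ℚ) (modularFunctionFieldBar N))
    {r : Place (AlgebraicClosure ℚ) (modularFunctionFieldBar N) →
      Place (IsLocalRing.ResidueField A)
        (modularFunctionFieldFullC (IsLocalRing.ResidueField A) N)}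
    (hr : IsPlaceReductionModL A N r)
    (D : Divisor.degZero (K := AlgebraicClosure ℚ) (F := modularFunctionFieldBar N)) :
    reductionModL A N (Pic0.mk D) = 0 ↔
      Finsupp.mapDomain r (D : Divisor (AlgebraicClosure ℚ) (modularFunctionFieldBar N)) ∈
        Divisor.principal (K := IsLocalRing.ResidueField A)
          (F := modularFunctionFieldFullC (IsLocalRing.ResidueField A) N) := by
  rw [mzrh_u_reductionModL_mk h hR hr D, Pic0.mk, QuotientAddGroup.eq_zero_iff,
    AddSubgroup.mem_addSubgroupOf, coe_reductionDegZeroAlong]

end Fermat.Agent.MZ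

end
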