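/-
[MZ-RH] (PUSH) and (PUSH-div): RESTRICTION OF PLACES / PUSH-FORWARD OF DIVISORS COMMUTE WITH THE
PLACE REDUCTION.

PART 1 (generic, charts).  Two pairs of charts `C1 C2` (level `N`) and `C1' C2'` (level `M`) of
node E, a "chart map" `(al, alC)`: `al (C_i.B) ≤ C_i'.B` and `red' ∘ al = alC ∘ red`; place maps
`rc`, `rc'` satisfying `rpg_Spec`; a coordinate `x ∈ C1.B` such that a place of level `M` where
`al x` has a value in `A` lies in `C1'` (covering lemma).  Then

  (PUSH)   `rc (P' ∣ al) = (rc' P') ∣ alC`   for every place `P'` of level `M`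

by `center_unique` at level `N`: in-chart-ness, finiteness on the reduced chart and the centre
relation all restrict along a chart map.

PART 2 (divisors).

Abstract form.  Levels `N`, `M`; `al : Q̄(X₀(N)) → Q̄(X₀(M))` and `alC : F̃_N → F̃_M` integral
algebra homomorphisms; `rc`, `rc'` place reductions at the two levels with

  (PUSH)   `rc (P' ∣ al) = (rc' P') ∣ alC`   for every place `P'` of `Q̄(X₀(M))`.

Then `(rc)_* ∘ al_* = alC_* ∘ (rc')_*` on ALL divisors (all residue degrees are `1`), and, by the
uniqueness (P1) of `MZ/RH/Unique.lean` at both levels, the same holds on `Div⁰` for the opaque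
`placeReductionModL h`, `placeReductionModL h'`.
-/
import Mathlib
import Fermat.Prelude.Def_AlgebraicCurve_Correspondence
import Fermat.Agent.JT3.PlaceMap.Global
import Fermat.Agent.MZ.RH.Unique

set_option autoImplicit false
set_option synthInstance.maxHeartbeats 400000
set_option maxHeartbeats 1000000
set_option linter.style.haveILetI false

noncomputable section

namespace Fermat.Agent.MZ

open ModularCurve AlgebraicCurve HahnSeries Fermat.Agent.JT3


/-! ### PART 1: (PUSH) on places, from the chart description of the place maps -/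

section Restrict

variable {K F F' : Type*} [Field K] [Field F] [Field F'] [Algebra K F] [Algebra K F']

theorem mzrh_p_mem_restrictAlong (φ : F →ₐ[K] F') (hφ : φ.toRingHom.IsIntegral) (w : Place K F')
    (f : F) : f ∈ (w.restrictAlong φ hφ).toValuationSubring ↔ φ f ∈ w.toValuationSubring :=
  Iff.rfl

theorem mzrh_p_mem_nonunits_restrictAlong (φ : F →ₐ[K] F') (hφ : φ.toRingHom.IsIntegral)
    (w : Place K F') (f : F) :
    f ∈ (w.restrictAlong φ hφ).toValuationSubring.nonunits ↔
      φ f ∈ w.toValuationSubring.nonunits := by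
  rw [ValuationSubring.mem_nonunits_iff_or, ValuationSubring.mem_nonunits_iff_or,
    mzrh_p_mem_restrictAlong, map_inv₀, map_eq_zero]

end Restrict

section Charts

variable {Kb : Type*} [Field Kb] {A : ValuationSubring Kb}
variable {FF FF' : Type*} [Field FF] [Field FF'] [Algebra Kb FF] [Algebra Kb FF']
variable {k : Type*} [Field k] {Ft Ft' : Type*} [Field Ft] [Field Ft'] [Algebra k Ft]
  [Algebra k Ft']

/-- a map of charts: `al` maps the chart ring into the chart ring and commutes with the
reductions. -/
structure mzrh_p_ChartMap (C : rp_Chart A FF k Ft) (C' : rp_Chart A FF' k Ft')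
    (al : FF →ₐ[Kb] FF') (alC : Ft →ₐ[k] Ft') : Prop where
  mem : ∀ b ∈ C.B, al b ∈ C'.B
  red : ∀ (b : FF) (hb : b ∈ C.B), C'.red ⟨al b, mem b hb⟩ = alC (C.red ⟨b, hb⟩)

namespace mzrh_p_ChartMap

variable {C : rp_Chart A FF k Ft} {C' : rp_Chart A FF' k Ft'}
  {al : FF →ₐ[Kb] FF'} {alC : Ft →ₐ[k] Ft'}

theorem sub_const_mem_iff (hal : al.toRingHom.IsIntegral) (P' : Place Kb FF') (b : FF) (c : Kb) :
    b - algebraMap Kb FF c ∈ (P'.restrictAlong al hal).toValuationSubring.nonunits ↔
      al b - algebraMap Kb FF' c ∈ P'.toValuationSubring.nonunits := by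
  rw [mzrh_p_mem_nonunits_restrictAlong, map_sub, al.commutes]

theorem inChart_restrict (h : mzrh_p_ChartMap C C' al alC) (hal : al.toRingHom.IsIntegral)
    {P' : Place Kb FF'} (hP' : C'.InChart P') : C.InChart (P'.restrictAlong al hal) := by
  intro b hb
  obtain ⟨c, hc⟩ := hP' (al b) (h.mem b hb)
  exact ⟨c, (sub_const_mem_iff hal P' b c).mpr hc⟩

theorem finRed_restrict (h : mzrh_p_ChartMap C C' al alC) (halC : alC.toRingHom.IsIntegral)
    {Q' : Place k Ft'} (hQ' : C'.FinRed Q') : C.FinRed (Q'.restrictAlong alC halC) := by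
  intro b
  rw [mzrh_p_mem_restrictAlong]
  have := hQ' ⟨al b, h.mem b b.2⟩
  rwa [h.red b b.2] at this

theorem centerAt_restrict (h : mzrh_p_ChartMap C C' al alC) (hal : al.toRingHom.IsIntegral)
    (halC : alC.toRingHom.IsIntegral) {P' : Place Kb FF'} {Q' : Place k Ft'}
    (hc : C'.CenterAt P' Q') :
    C.CenterAt (P'.restrictAlong al hal) (Q'.restrictAlong alC halC) := by
  intro b c hbc
  rw [mzrh_p_mem_nonunits_restrictAlong, ← h.red b b.2]
  exact hc ⟨al b, h.mem b b.2⟩ c ((sub_const_mem_iff hal P' b c).mp hbc)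

end mzrh_p_ChartMap

/-- **(PUSH), generic form.** -/
theorem mzrh_p_push_place {C1 C2 : rp_Chart A FF k Ft} {C1' C2' : rp_Chart A FF' k Ft'}
    (ok1 : rpg_ChartOK C1) (ok2 : rpg_ChartOK C2)
    {al : FF →ₐ[Kb] FF'} {alC : Ft →ₐ[k] Ft'}
    (hal : al.toRingHom.IsIntegral) (halC : alC.toRingHom.IsIntegral)
    (h1 : mzrh_p_ChartMap C1 C1' al alC) (h2 : mzrh_p_ChartMap C2 C2' al alC)
    (x : FF) (hx : x ∈ C1.B)
    (hcov : ∀ P' : Place Kb FF',
      (∃ c : A, al x - algebraMap Kb FF' (c : Kb) ∈ P'.toValuationSubring.nonunits) →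
        C1'.InChart P')
    {rc : Place Kb FF → Place k Ft} {rc' : Place Kb FF' → Place k Ft'}
    (hs : ∀ P, rpg_Spec C1 C2 P (rc P)) (hs' : ∀ P', rpg_Spec C1' C2' P' (rc' P'))
    (P' : Place Kb FF') :
    rc (P'.restrictAlong al hal) = (rc' P').restrictAlong alC halC := by
  by_cases hin : C1.InChart (P'.restrictAlong al hal)
  · -- first chart
    have hin' : C1'.InChart P' := by
      obtain ⟨c, hc⟩ := hin x hx
      exact hcov P' ⟨c, (mzrh_p_ChartMap.sub_const_mem_iff hal P' x c).mp hc⟩
    obtain ⟨hf', hc'⟩ := (hs' P').1 hin'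
    obtain ⟨hf, hc⟩ := (hs _).1 hin
    exact ok1.center_unique _ _ _ hin hf (h1.finRed_restrict halC hf') hc
      (h1.centerAt_restrict hal halC hc')
  · -- second chart
    have hin' : ¬ C1'.InChart P' := fun h => hin (h1.inChart_restrict hal h)
    obtain ⟨hi2', hf', hc'⟩ := (hs' P').2 hin'
    obtain ⟨hi2, hf, hc⟩ := (hs _).2 hin
    exact ok2.center_unique _ _ _ hi2 hf (h2.finRed_restrict halC hf') hc
      (h2.centerAt_restrict hal halC hc')

end Charts

/-! ### PART 2: (PUSH-div) -/

section Generic

variable {K F F' : Type*} [Field K] [Field F] [Field F'] [Algebra K F] [Algebra K F']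

/-- a place of degree one has inertia degree one along any integral homomorphism -/
theorem mzrh_p_inertiaDegAlong_eq_one (φ : F →ₐ[K] F') (hφ : φ.toRingHom.IsIntegral)
    (w : Place K F') (hw : w.deg = 1) : Place.inertiaDegAlong φ hφ w = 1 := by
  have h1 : (w.restrictAlong φ hφ).deg * Place.inertiaDegAlong φ hφ w = w.deg := by
    letI := algebraAlong φ
    haveI := isScalarTower_along φ
    haveI := isIntegral_along φ hφ
    exact Place.deg_restrict_mul_inertiaDeg (F := F) w
  rw [hw] at h1
  exact Nat.eq_one_of_mul_eq_one_left h1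

/-- push-forward of a divisor supported on places of degree one is `mapDomain` of the
restriction map -/
theorem mzrh_p_pushforwardAlong_eq_mapDomain (φ : F →ₐ[K] F') (hφ : φ.toRingHom.IsIntegral)
    (D : Divisor K F') (hD : ∀ w ∈ D.support, w.deg = 1) :
    Divisor.pushforwardAlong φ hφ D
      = Finsupp.mapDomain (fun w => Place.restrictAlong φ hφ w) D := by
  classical
  have hsum : D = ∑ w ∈ D.support, Finsupp.single w (D w) := by
    conv_lhs => rw [← Finsupp.sum_single D]
    rfl
  conv_lhs => rw [hsum]
  conv_rhs => rw [hsum]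
  rw [map_sum, Finsupp.mapDomain_finsetSum]
  refine Finset.sum_congr rfl fun w hw => ?_
  rw [Divisor.pushforwardAlong_single, Finsupp.mapDomain_single,
    mzrh_p_inertiaDegAlong_eq_one φ hφ w (hD w hw), Nat.cast_one, mul_one]

end Generic

variable {A : ValuationSubring (AlgebraicClosure ℚ)} {N M : ℕ}

/-- **(PUSH-div), explicit place reductions, ALL divisors.**  Only the equation (PUSH) and
`deg = 1` are used. -/
theorem mzrh_p_push_div_explicit
    (al : modularFunctionFieldBar N →ₐ[AlgebraicClosure ℚ] modularFunctionFieldBar M)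
    (hal : al.toRingHom.IsIntegral)
    (alC : modularFunctionFieldFullC (IsLocalRing.ResidueField A) N →ₐ[IsLocalRing.ResidueField A]
      modularFunctionFieldFullC (IsLocalRing.ResidueField A) M)
    (halC : alC.toRingHom.IsIntegral)
    {rc : Place (AlgebraicClosure ℚ) (modularFunctionFieldBar N) →
      Place (IsLocalRing.ResidueField A)
        (modularFunctionFieldFullC (IsLocalRing.ResidueField A) N)}
    {rc' : Place (AlgebraicClosure ℚ) (modularFunctionFieldBar M) →
      Place (IsLocalRing.ResidueField A)
        (modularFunctionFieldFullC (IsLocalRing.ResidueField A) M)}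
    (hdeg : ∀ P' : Place (AlgebraicClosure ℚ) (modularFunctionFieldBar M), P'.deg = 1)
    (hdegC : ∀ P' : Place (AlgebraicClosure ℚ) (modularFunctionFieldBar M), (rc' P').deg = 1)
    (hpush : ∀ P' : Place (AlgebraicClosure ℚ) (modularFunctionFieldBar M),
      rc (P'.restrictAlong al hal) = (rc' P').restrictAlong alC halC)
    (D' : Divisor (AlgebraicClosure ℚ) (modularFunctionFieldBar M)) :
    Finsupp.mapDomain rc (Divisor.pushforwardAlong al hal D')
      = Divisor.pushforwardAlong alC halC (Finsupp.mapDomain rc' D') := by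
  classical
  induction D' using Finsupp.induction_linear with
  | zero => simp
  | add D E hD hE => rw [map_add, Finsupp.mapDomain_add, Finsupp.mapDomain_add, map_add, hD, hE]
  | single P' n =>
    rw [Divisor.pushforwardAlong_single, Finsupp.mapDomain_single, Finsupp.mapDomain_single,
      Divisor.pushforwardAlong_single, hpush P',
      mzrh_p_inertiaDegAlong_eq_one al hal P' (hdeg P'),
      mzrh_p_inertiaDegAlong_eq_one alC halC (rc' P') (hdegC P')]

/-- **(PUSH-div)** for the chosen `placeReductionModL` at both levels, on `Div⁰`. -/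
theorem mzrh_p_push_div (h : ReductionInputsModL A N) (h' : ReductionInputsModL A M)
    (hR : est_Riemann (AlgebraicClosure ℚ) (modularFunctionFieldBar N))
    (hR' : est_Riemann (AlgebraicClosure ℚ) (modularFunctionFieldBar M))
    (al : modularFunctionFieldBar N →ₐ[AlgebraicClosure ℚ] modularFunctionFieldBar M)
    (hal : al.toRingHom.IsIntegral)
    (alC : modularFunctionFieldFullC (IsLocalRing.ResidueField A) N →ₐ[IsLocalRing.ResidueField A]
      modularFunctionFieldFullC (IsLocalRing.ResidueField A) M)
    (halC : alC.toRingHom.IsIntegral)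
    {rc : Place (AlgebraicClosure ℚ) (modularFunctionFieldBar N) →
      Place (IsLocalRing.ResidueField A)
        (modularFunctionFieldFullC (IsLocalRing.ResidueField A) N)}
    {rc' : Place (AlgebraicClosure ℚ) (modularFunctionFieldBar M) →
      Place (IsLocalRing.ResidueField A)
        (modularFunctionFieldFullC (IsLocalRing.ResidueField A) M)}
    (hrc : IsPlaceReductionModL A N rc) (hrc' : IsPlaceReductionModL A M rc')
    (hpush : ∀ P' : Place (AlgebraicClosure ℚ) (modularFunctionFieldBar M),
      rc (P'.restrictAlong al hal) = (rc' P').restrictAlong alC halC) :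
    ∀ D' ∈ Divisor.degZero (K := AlgebraicClosure ℚ) (F := modularFunctionFieldBar M),
      Finsupp.mapDomain (placeReductionModL h) (Divisor.pushforwardAlong al hal D')
        = Divisor.pushforwardAlong alC halC (Finsupp.mapDomain (placeReductionModL h') D') := by
  intro D' hD'
  rw [mzrh_u_placeReductionModL_eq h hR hrc _ (Divisor.pushforwardAlong_mem_degZero al hal hD'),
    mzrh_u_placeReductionModL_eq h' hR' hrc' D' hD']
  exact mzrh_p_push_div_explicit al hal alC halC hR'.deg_one
    (fun P' => by rw [hrc'.1 P', hR'.deg_one P']) hpush D'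

/-- **(PUSH-div) from the chart description** (PART 1 + PART 2): the form consumed by
`MZ/RH/Transfer.lean`. -/
theorem mzrh_p_push_div_of_charts (h : ReductionInputsModL A N) (h' : ReductionInputsModL A M)
    (hR : est_Riemann (AlgebraicClosure ℚ) (modularFunctionFieldBar N))
    (hR' : est_Riemann (AlgebraicClosure ℚ) (modularFunctionFieldBar M))
    (al : modularFunctionFieldBar N →ₐ[AlgebraicClosure ℚ] modularFunctionFieldBar M)
    (hal : al.toRingHom.IsIntegral)
    (alC : modularFunctionFieldFullC (IsLocalRing.ResidueField A) N →ₐ[IsLocalRing.ResidueField A]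
      modularFunctionFieldFullC (IsLocalRing.ResidueField A) M)
    (halC : alC.toRingHom.IsIntegral)
    {C1 C2 : rp_Chart A (modularFunctionFieldBar N) (IsLocalRing.ResidueField A)
      (modularFunctionFieldFullC (IsLocalRing.ResidueField A) N)}
    {C1' C2' : rp_Chart A (modularFunctionFieldBar M) (IsLocalRing.ResidueField A)
      (modularFunctionFieldFullC (IsLocalRing.ResidueField A) M)}
    (ok1 : rpg_ChartOK C1) (ok2 : rpg_ChartOK C2)
    (h1 : mzrh_p_ChartMap C1 C1' al alC) (h2 : mzrh_p_ChartMap C2 C2' al alC)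
    (x : modularFunctionFieldBar N) (hx : x ∈ C1.B)
    (hcov : ∀ P' : Place (AlgebraicClosure ℚ) (modularFunctionFieldBar M),
      (∃ c : A, al x - algebraMap (AlgebraicClosure ℚ) (modularFunctionFieldBar M)
        (c : AlgebraicClosure ℚ) ∈ P'.toValuationSubring.nonunits) → C1'.InChart P')
    {rc : Place (AlgebraicClosure ℚ) (modularFunctionFieldBar N) →
      Place (IsLocalRing.ResidueField A)
        (modularFunctionFieldFullC (IsLocalRing.ResidueField A) N)}
    {rc' : Place (AlgebraicClosure ℚ) (modularFunctionFieldBar M) →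
      Place (IsLocalRing.ResidueField A)
        (modularFunctionFieldFullC (IsLocalRing.ResidueField A) M)}
    (hrc : IsPlaceReductionModL A N rc) (hrc' : IsPlaceReductionModL A M rc')
    (hs : ∀ P, rpg_Spec C1 C2 P (rc P)) (hs' : ∀ P', rpg_Spec C1' C2' P' (rc' P')) :
    ∀ D' ∈ Divisor.degZero (K := AlgebraicClosure ℚ) (F := modularFunctionFieldBar M),
      Finsupp.mapDomain (placeReductionModL h) (Divisor.pushforwardAlong al hal D')
        = Divisor.pushforwardAlong alC halC (Finsupp.mapDomain (placeReductionModL h') D') :=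
  mzrh_p_push_div h h' hR hR' al hal alC halC hrc hrc'
    (mzrh_p_push_place ok1 ok2 hal halC h1 h2 x hx hcov hs hs')

end Fermat.Agent.MZ

end
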