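/-
[MZ-RH] (PUSH-div) FOR THE MODULAR TOWER `X₀(N l') → X₀(N)`: instantiation of `MZ/RH/Push.lean`
at `al = heckeAlphaBar Q̄ N l'`, `alC = mzrh_alC k_A N l'` and chart data `rpm_ChartData`
(`JT3/PlaceMap/Modular.lean`).

* `mzrh_pm_chartMap` : for chart data `D` (level `N`), `D'` (level `N l'`) the compatibility of
  the reductions (I2) is AUTOMATIC (the reduction is the coefficientwise reduction of the SAME
  `q`-series); only the membership (I1) `al (D.B) ⊆ D'.B` is a hypothesis.
* `mzrh_pm_cov` : the covering hypothesis of `mzrh_p_push_place`, from `rpm_ChartData.covP`.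
* `mzrh_pm_push_place`, `mzrh_pm_push_div` : (PUSH) and (PUSH-div).
-/
import Mathlib
import Fermat.Prelude.Def_ModularCurve_HeckeOperator
import Fermat.Agent.JT3.PlaceMap.Modular
import Fermat.Agent.MZ.RH.TowerModL
import Fermat.Agent.MZ.RH.Push

set_option autoImplicit false
set_option synthInstance.maxHeartbeats 400000
set_option maxHeartbeats 1000000
set_option linter.unusedSectionVars false
set_option linter.style.haveILetI false

noncomputable section

namespace Fermat.Agent.MZ

open ModularCurve AlgebraicCurve HahnSeries Fermat.Agent.JT3 Fermat.Agent.S24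

attribute [local instance] rpm_instAlgSubring rpm_instAlgFt

variable {A : ValuationSubring Kbar} {N l' : ℕ} [NeZero N] [NeZero l']

/-- `α` maps `j` to `j`. -/
theorem mzrh_pm_al_j : heckeAlphaBar Kbar N l' (br_jBar N) = br_jBar (N * l') :=
  Subtype.ext rfl

/-- `α` maps `q`-integral functions to `q`-integral functions, with the same integral lift. -/
theorem mzrh_pm_al_mem_int {b : Fbar N}
    (hb : b ∈ rpg_intSubring A (IsLocalRing.residue A) N) :
    heckeAlphaBar Kbar N l' b ∈ rpg_intSubring A (IsLocalRing.residue A) (N * l') := by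
  obtain ⟨y, hy, hyk⟩ := hb
  exact ⟨y, by rw [hy, coe_heckeAlphaBar],
    full_degeneracyC_le (IsLocalRing.ResidueField A) (dvd_mul_right N l') hyk⟩

/-- **(I2) is automatic**: the reduction of `α b` is `α̃` of the reduction of `b`. -/
theorem mzrh_pm_intRed_al (b : Fbar N)
    (hb : b ∈ rpg_intSubring A (IsLocalRing.residue A) N)
    (hb' : heckeAlphaBar Kbar N l' b ∈ rpg_intSubring A (IsLocalRing.residue A) (N * l')) :
    rpg_intRed A (IsLocalRing.residue A) (N * l') ⟨heckeAlphaBar Kbar N l' b, hb'⟩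
      = mzrh_alC (IsLocalRing.ResidueField A) N l'
          (rpg_intRed A (IsLocalRing.residue A) N ⟨b, hb⟩) := by
  have hb2 : ∃ y : LaurentSeries A, coeffMap A.subtype y = (b : LaurentSeries Kbar) ∧
      coeffMap (IsLocalRing.residue A) y ∈
        modularFunctionFieldFullC (IsLocalRing.ResidueField A) N := hb
  obtain ⟨y, hy, -⟩ := hb2
  apply Subtype.ext
  rw [mzrh_coe_alC,
    rpm_intRed_coe A (N * l') ⟨heckeAlphaBar Kbar N l' b, hb'⟩ y (by rw [hy, coe_heckeAlphaBar]),
    rpm_intRed_coe A N ⟨b, hb⟩ y hy]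

/-- chart data at the two levels with `α (D.B) ⊆ D'.B` give a chart map. -/
theorem mzrh_pm_chartMap {x : Fbar N} {x' : Fbar (N * l')} (D : rpm_ChartData A N x)
    (D' : rpm_ChartData A (N * l') x')
    (hmem : ∀ b ∈ D.B, heckeAlphaBar Kbar N l' b ∈ D'.B) :
    mzrh_p_ChartMap D.chart D'.chart (heckeAlphaBar Kbar N l')
      (mzrh_alC (IsLocalRing.ResidueField A) N l') where
  mem := hmem
  red := fun b hb => by
    rw [D'.chart_red, D.chart_red]
    exact mzrh_pm_intRed_al b (D.le_int hb) (D'.le_int (hmem b hb))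

/-- the covering hypothesis of `mzrh_p_push_place`. -/
theorem mzrh_pm_cov (D1' : rpm_ChartData A (N * l') (br_jBar (N * l')))
    (P' : Place Kbar (Fbar (N * l')))
    (h : ∃ c : A, heckeAlphaBar Kbar N l' (br_jBar N) -
      algebraMap Kbar (Fbar (N * l')) (c : Kbar) ∈ P'.toValuationSubring.nonunits) :
    D1'.chart.InChart P' := by
  rw [mzrh_pm_al_j] at h
  exact D1'.covP (rpm_funField (N * l')) P' h

/-- **(PUSH) for the modular tower.** -/
theorem mzrh_pm_push_place
    (hal : HeckeAlphaBarIntegral Kbar N l')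
    (halC : (mzrh_alC (IsLocalRing.ResidueField A) N l').toRingHom.IsIntegral)
    (D1 : rpm_ChartData A N (br_jBar N)) (D2 : rpm_ChartData A N (br_jBar N)⁻¹)
    (D1' : rpm_ChartData A (N * l') (br_jBar (N * l')))
    (D2' : rpm_ChartData A (N * l') (br_jBar (N * l'))⁻¹)
    (ok1 : rpg_ChartOK D1.chart) (ok2 : rpg_ChartOK D2.chart)
    (hmem1 : ∀ b ∈ D1.B, heckeAlphaBar Kbar N l' b ∈ D1'.B)
    (hmem2 : ∀ b ∈ D2.B, heckeAlphaBar Kbar N l' b ∈ D2'.B)
    {rc : Place Kbar (Fbar N) → Place (IsLocalRing.ResidueField A)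
      (modularFunctionFieldFullC (IsLocalRing.ResidueField A) N)}
    {rc' : Place Kbar (Fbar (N * l')) → Place (IsLocalRing.ResidueField A)
      (modularFunctionFieldFullC (IsLocalRing.ResidueField A) (N * l'))}
    (hs : ∀ P, rpg_Spec D1.chart D2.chart P (rc P))
    (hs' : ∀ P', rpg_Spec D1'.chart D2'.chart P' (rc' P'))
    (P' : Place Kbar (Fbar (N * l'))) :
    rc (P'.restrictAlong (heckeAlphaBar Kbar N l') hal)
      = (rc' P').restrictAlong (mzrh_alC (IsLocalRing.ResidueField A) N l') halC :=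
  mzrh_p_push_place ok1 ok2 hal halC (mzrh_pm_chartMap D1 D1' hmem1)
    (mzrh_pm_chartMap D2 D2' hmem2) (br_jBar N) D1.x_mem (mzrh_pm_cov D1') hs hs' P'

/-- **(PUSH-div) for the modular tower**, for the chosen `placeReductionModL` at both levels. -/
theorem mzrh_pm_push_div (h : ReductionInputsModL A N) (h' : ReductionInputsModL A (N * l'))
    (hal : HeckeAlphaBarIntegral Kbar N l')
    (halC : (mzrh_alC (IsLocalRing.ResidueField A) N l').toRingHom.IsIntegral)
    (D1 : rpm_ChartData A N (br_jBar N)) (D2 : rpm_ChartData A N (br_jBar N)⁻¹)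
    (D1' : rpm_ChartData A (N * l') (br_jBar (N * l')))
    (D2' : rpm_ChartData A (N * l') (br_jBar (N * l'))⁻¹)
    (ok1 : rpg_ChartOK D1.chart) (ok2 : rpg_ChartOK D2.chart)
    (hmem1 : ∀ b ∈ D1.B, heckeAlphaBar Kbar N l' b ∈ D1'.B)
    (hmem2 : ∀ b ∈ D2.B, heckeAlphaBar Kbar N l' b ∈ D2'.B)
    {rc : Place Kbar (Fbar N) → Place (IsLocalRing.ResidueField A)
      (modularFunctionFieldFullC (IsLocalRing.ResidueField A) N)}
    {rc' : Place Kbar (Fbar (N * l')) → Place (IsLocalRing.ResidueField A)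
      (modularFunctionFieldFullC (IsLocalRing.ResidueField A) (N * l'))}
    (hrc : IsPlaceReductionModL A N rc) (hrc' : IsPlaceReductionModL A (N * l') rc')
    (hs : ∀ P, rpg_Spec D1.chart D2.chart P (rc P))
    (hs' : ∀ P', rpg_Spec D1'.chart D2'.chart P' (rc' P')) :
    ∀ D' ∈ Divisor.degZero (K := Kbar) (F := Fbar (N * l')),
      Finsupp.mapDomain (placeReductionModL h)
          (Divisor.pushforwardAlong (heckeAlphaBar Kbar N l') hal D')
        = Divisor.pushforwardAlong (mzrh_alC (IsLocalRing.ResidueField A) N l') halC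
            (Finsupp.mapDomain (placeReductionModL h') D') :=
  mzrh_p_push_div h h' (est_riemann_fbar N) (est_riemann_fbar (N * l'))
    (heckeAlphaBar Kbar N l') hal (mzrh_alC (IsLocalRing.ResidueField A) N l') halC hrc hrc'
    (mzrh_pm_push_place hal halC D1 D2 D1' D2' ok1 ok2 hmem1 hmem2 hs hs')

end Fermat.Agent.MZ

end
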