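/-
Project MAZUR (S15), node [MZ-RH] (kernel of reduction is Hecke-stable), cell (R-SPEC) (helper23).

`ModularCurve.ReductionInputsModL A N` (node E, `rpw_nodeE`) is an existential statement; its
witness, the place map of the two-chart model of `X₀(N)` over `A`, is hidden.  This file re-runs the
last wrappers of node E KEEPING the witness:

* `mzrh_rs_B A ℓ N x₀` : the chart ring of the model with coordinate `x₀`: the subring of `F̄_N`
  generated by the constants of `A` and the base change of the level-`0` chart (= the integral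
  closure of `O₀[x₀]` in `F_N / K₀`, `K₀ = ebf_K0 ℓ`, `O₀ = A ∩ K₀`).
* `mzrh_rs_of_data` : two chart data with enough levels and regular reductions give an EXPLICIT place
  reduction `rc` (`IsPlaceReductionModL A N rc`) with the centre description `rpg_Spec`.
* **`mzrh_rs_spec`** : for every `ℓ ∤ N` and every place `A` over `ℓ`: chart data `D1` (`x = j`),
  `D2` (`x = j⁻¹`) with chart rings `mzrh_rs_B`, `rpg_ChartOK` for both, and `rc` as above.
* consumers' corollaries: `mzrh_rs_eq_of_center`, `mzrh_rs_value`, `mzrh_rs_inChart_of_value`.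
Prefix `mzrh_rs_`.
-/
import Mathlib
import Fermat.Agent.JT3.PlaceMap.WireNodeE

set_option autoImplicit false
set_option linter.unusedSectionVars false
set_option linter.style.haveILetI false

attribute [local instance] Fermat.Agent.JT3.rpm_instAlgSubring Fermat.Agent.JT3.rpm_instAlgFt
set_option synthInstance.maxHeartbeats 400000
set_option maxHeartbeats 1000000

namespace Fermat.Agent.MZ

open AlgebraicCurve Polynomial ModularCurve IntermediateField
open Fermat.Agent.S24 Fermat.Agent.JT3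

/-! ### an explicit place reduction from two chart data -/

section Generic

variable (A : ValuationSubring Kbar) (N : ℕ) [NeZero N] {ℓ : ℕ} [Fact ℓ.Prime]

/-- **Node E keeping the witness**: two chart data (coordinates `j`, `j⁻¹`) whose charts have enough
levels and regular reduction give an explicit place reduction with the centre description. -/
theorem mzrh_rs_of_data (hℓN : ¬ ℓ ∣ N) (hA : A.LiesOverPrime ℓ)
    (D1 : rpm_ChartData A N (br_jBar N)) (D2 : rpm_ChartData A N (br_jBar N)⁻¹)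
    (hL1 : D1.chart.HasLevels) (hR1 : D1.chart.RedRegular)
    (hL2 : D2.chart.HasLevels) (hR2 : D2.chart.RedRegular) :
    ∃ rc : Place Kbar (Fbar N) →
        Place (IsLocalRing.ResidueField A)
          ↥(modularFunctionFieldFullC (IsLocalRing.ResidueField A) N),
      rpg_ChartOK D1.chart ∧ rpg_ChartOK D2.chart ∧ IsPlaceReductionModL A N rc ∧
        ∀ P, rpg_Spec D1.chart D2.chart P (rc P) := by
  have hF := rpm_funField N
  have ok1 : rpg_ChartOK D1.chart := rpe_chartOK hF hL1 hR1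
  have ok2 : rpg_ChartOK D2.chart := rpe_chartOK hF hL2 hR2
  set G := rpm_glue A N D1 D2 hL1 hL2 with hG
  have hdegP : ∀ P : Place Kbar (Fbar N), P.deg = 1 := rpg_deg_eq_one_of_funField hF
  have hdegQ : ∀ Q : Place (IsLocalRing.ResidueField A)
      ↥(modularFunctionFieldFullC (IsLocalRing.ResidueField A) N), Q.deg = 1 :=
    rpg_deg_eq_one_of_funField (rpm_funFieldRed A N hℓN hA)
  refine ⟨G.placeMap hF ok1 ok2, ok1, ok2, ⟨fun P => by rw [hdegP, hdegQ], ?_⟩,
    fun P => G.placeMap_spec hF ok1 ok2 P⟩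
  intro y hy hyk hne D hD Q
  obtain ⟨h, hred⟩ := rpg_intRed_spec A (IsLocalRing.residue A) N y hy hyk
  have h1 := G.placeMap_formula hF ok1 ok2 ⟨_, h⟩
    (by
      show rpg_intRed A (IsLocalRing.residue A) N ⟨_, h⟩ ≠ 0
      rw [hred]
      exact fun h0 => hne (congrArg Subtype.val h0)) D hD Q
  rw [h1]
  show Q.ord (rpg_intRed A (IsLocalRing.residue A) N ⟨_, h⟩) = _
  rw [hred]

end Generic

/-! ### the chart rings of the model -/

section ChartRing

variable (A : ValuationSubring Kbar) (N : ℕ) [NeZero N]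
  (L : Type*) [Field L] [Algebra ℚ L] [Algebra L Kbar] [IsScalarTower ℚ L Kbar]

/-- **the chart ring of the model** with coordinate `x₀` (a function of the base level `L`): the
subring of `F̄_N` generated by the constants of `A` and the base change of the level-`0` chart
`fc_chart (A ∩ L) {x₀}` (the integral closure of `(A ∩ L)[x₀]` in `F_N / L`). -/
noncomputable def mzrh_rs_B (x₀ : ↥(lg_F L N)) : Subring (Fbar N) :=
  rp_genRing A.toSubring
    ((rpz_beta N L) '' ((fc_chart ↥(rpz_O0 A L) ({x₀} : Set ↥(lg_F L N)) :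
      Subalgebra ↥(rpz_O0 A L) ↥(lg_F L N)) : Set ↥(lg_F L N)))

variable {N L}

theorem mzrh_rs_const_mem_B (x₀ : ↥(lg_F L N)) (a : A) :
    algebraMap Kbar (Fbar N) (a : Kbar) ∈ mzrh_rs_B A N L x₀ :=
  rpm_const_mem_genRing A N _ a

theorem mzrh_rs_beta_mem_B {x₀ b₀ : ↥(lg_F L N)}
    (hb₀ : b₀ ∈ fc_chart ↥(rpz_O0 A L) ({x₀} : Set ↥(lg_F L N))) :
    rpz_beta N L b₀ ∈ mzrh_rs_B A N L x₀ :=
  Subring.subset_closure (Or.inl ⟨b₀, hb₀, rfl⟩)

/-- induction principle for the chart ring -/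
theorem mzrh_rs_B_induction {x₀ : ↥(lg_F L N)} {p : Fbar N → Prop}
    (hconst : ∀ a : A, p (algebraMap Kbar (Fbar N) (a : Kbar)))
    (hbeta : ∀ b₀ ∈ fc_chart ↥(rpz_O0 A L) ({x₀} : Set ↥(lg_F L N)), p (rpz_beta N L b₀))
    (hadd : ∀ x y, p x → p y → p (x + y)) (hneg : ∀ x, p x → p (-x))
    (hmul : ∀ x y, p x → p y → p (x * y)) {b : Fbar N} (hb : b ∈ mzrh_rs_B A N L x₀) : p b := by
  have h0 : p 0 := by
    have := hconst 0
    simpa using this
  have h1 : p 1 := by
    have := hconst 1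
    simpa using this
  rw [mzrh_rs_B, rp_genRing] at hb
  induction hb using Subring.closure_induction with
  | mem y hy =>
    rcases hy with ⟨b₀, hb₀, rfl⟩ | ⟨a, ha, rfl⟩
    · exact hbeta b₀ hb₀
    · exact hconst ⟨a, ha⟩
  | zero => exact h0
  | one => exact h1
  | add x y _ _ hx hy => exact hadd x y hx hy
  | neg x _ hx => exact hneg x hx
  | mul x y _ _ hx hy => exact hmul x y hx hy

/-- the chart ring does not depend on the chosen finite set of generators of the level-`0`
chart. -/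
theorem mzrh_rs_genRing_eq {x₀ : ↥(lg_F L N)} {G₀ : Finset ↥(lg_F L N)}
    (hG₀ : Algebra.adjoin ↥(rpz_O0 A L) (G₀ : Set ↥(lg_F L N)) =
      fc_chart ↥(rpz_O0 A L) ({x₀} : Set ↥(lg_F L N))) :
    rp_genRing A.toSubring (rpz_gens N L G₀ : Set (Fbar N)) = mzrh_rs_B A N L x₀ := by
  apply le_antisymm
  · rw [mzrh_rs_B, rp_genRing, rp_genRing]
    refine Subring.closure_mono (Set.union_subset_union_left _ ?_)
    rw [rpz_coe_gens]
    exact Set.image_mono fun g₀ hg₀ => rpz_subset_chart A hG₀ hg₀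
  · intro b hb
    refine mzrh_rs_B_induction A (p := fun b => b ∈ rp_genRing A.toSubring
      (rpz_gens N L G₀ : Set (Fbar N))) ?_ ?_ ?_ ?_ ?_ hb
    · exact fun a => rpm_const_mem_genRing A N _ a
    · exact fun b₀ hb₀ => rpz_genRing_le A _ (rpz_beta_mem_genRing A hG₀ hb₀)
    · exact fun x y hx hy => add_mem hx hy
    · exact fun x hx => neg_mem hx
    · exact fun x y hx hy => mul_mem hx hy

end ChartRing

/-! ### one chart, keeping its ring -/

section OneChart

variable (A : ValuationSubring Kbar) {N : ℕ} [NeZero N]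
  {L : Type*} [Field L] [Algebra ℚ L] [Algebra L Kbar] [IsScalarTower ℚ L Kbar]
  {ℓ : ℕ} [Fact ℓ.Prime]

/-- **one chart of the model over `A`** from a chart at the DVR level `(L, A ∩ L)` (`rpz_chart`
keeping the chart ring): a chart datum with ring `mzrh_rs_B`, enough levels and regular
reduction. -/
theorem mzrh_rs_chart (hℓN : ¬ ℓ ∣ N) (hA : A.LiesOverPrime ℓ)
    [IsDiscreteValuationRing ↥(rpz_O0 A L)] {π : ↥(rpz_O0 A L)} (hπ : Irreducible π)
    (hres : ∀ a : A, ∃ c : L, algebraMap L Kbar c ∈ A ∧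
      (a : Kbar) - algebraMap L Kbar c ∈ A.nonunits)
    {x : ↥(lg_F L N)} (H : rpz_Level0 (rpz_O0 A L) N π x)
    (halg : Algebra.IsAlgebraic ↥(Algebra.adjoin ↥(rpz_O0 A L) ({x} : Set ↥(lg_F L N)))
      ↥(lg_F L N))
    {X : Fbar N} (hX : rpz_beta N L x = X)
    (hXint : X ∈ rpg_intSubring A (IsLocalRing.residue A) N)
    (htr : Transcendental (IsLocalRing.ResidueField A)
      (rpg_intRed A (IsLocalRing.residue A) N ⟨X, hXint⟩)) :
    ∃ D : rpm_ChartData A N X, D.B = mzrh_rs_B A N L x ∧ D.chart.HasLevels ∧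
      D.chart.RedRegular := by
  subst hX
  obtain ⟨G₀, hG₀⟩ := H.fg
  have hGG := rpz_goodGens A hℓN hA H hG₀ halg
  set D := rpm_dataGen A N (rpz_beta N L x) (rpz_gens N L G₀ : Set (Fbar N)) hGG with hD
  have hL : D.chart.HasLevels := rpu_hasLevels (rpm_funField N) (rpz_base A hπ hres H hG₀ hGG)
  refine ⟨D, mzrh_rs_genRing_eq A hG₀, hL, ?_⟩
  have hπm : π ∈ IsLocalRing.maximalIdeal ↥(rpz_O0 A L) := by
    rw [IsLocalRing.mem_maximalIdeal]
    exact hπ.not_isUnit
  haveI : IsDedekindDomain ↥(rpz_D D.chart) := rpz_isDedekindDomain A hπm hres H hG₀ hGG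
  haveI : IsFractionRing ↥(rpz_D D.chart)
      ↥(modularFunctionFieldFullC (IsLocalRing.ResidueField A) N) :=
    rpz_isFractionRing A N D hL
  have hnf : ¬ IsField ↥(rpz_D D.chart) :=
    rpz_not_isField D.chart D.x_mem D.integral htr
  exact rpd_redRegular D.chart ↥(rpz_D D.chart) hnf (rpz_rho D.chart)
    (rpz_rho_surjective D.chart) (rpz_rho_spec D.chart)

end OneChart

/-! ### (R-SPEC) -/

section Spec

variable (N : ℕ) [NeZero N] {ℓ : ℕ} [Fact ℓ.Prime]

/-- **(R-SPEC), any DVR level**: explicit reduction data of `X₀(N)` at `A` from the two level-`0`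
packages at a DVR level `(L, A ∩ L)` with full residue field. -/
theorem mzrh_rs_spec_of_level0 {L : Type*} [Field L] [Algebra ℚ L] [Algebra L Kbar]
    [IsScalarTower ℚ L Kbar] (A : ValuationSubring Kbar) (hℓN : ¬ ℓ ∣ N)
    (hA : A.LiesOverPrime ℓ)
    [IsDiscreteValuationRing ↥(rpz_O0 A L)] {π : ↥(rpz_O0 A L)} (hπ : Irreducible π)
    (hres : ∀ a : A, ∃ c : L, algebraMap L Kbar c ∈ A ∧
      (a : Kbar) - algebraMap L Kbar c ∈ A.nonunits)
    (H1 : rpz_Level0 (rpz_O0 A L) N π (rpz_jF L N))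
    (H2 : rpz_Level0 (rpz_O0 A L) N π (rpz_jF L N)⁻¹) :
    ∃ (D1 : rpm_ChartData A N (br_jBar N)) (D2 : rpm_ChartData A N (br_jBar N)⁻¹)
      (rc : Place Kbar (Fbar N) →
        Place (IsLocalRing.ResidueField A)
          ↥(modularFunctionFieldFullC (IsLocalRing.ResidueField A) N)),
      D1.B = mzrh_rs_B A N L (rpz_jF L N) ∧ D2.B = mzrh_rs_B A N L (rpz_jF L N)⁻¹ ∧
        rpg_ChartOK D1.chart ∧ rpg_ChartOK D2.chart ∧ IsPlaceReductionModL A N rc ∧
          ∀ P, rpg_Spec D1.chart D2.chart P (rc P) := by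
  haveI : CharZero L := algebraRat.charZero L
  haveI : IsFractionRing ↥(rpz_O0 A L) L := inferInstance
  haveI : IsScalarTower ↥(rpz_O0 A L) L ↥(lg_F L N) := IsScalarTower.of_algebraMap_eq fun _ => rfl
  have halg1 : Algebra.IsAlgebraic
      ↥(Algebra.adjoin ↥(rpz_O0 A L) ({rpz_jF L N} : Set ↥(lg_F L N))) ↥(lg_F L N) := by
    haveI := rpz_finite L N
    exact fc_ff_isAlgebraic (L := L) (rpz_jF L N)
  have halg2 : Algebra.IsAlgebraic
      ↥(Algebra.adjoin ↥(rpz_O0 A L) ({(rpz_jF L N)⁻¹} : Set ↥(lg_F L N))) ↥(lg_F L N) := by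
    haveI := rpz_finite_inv L N
    exact fc_ff_isAlgebraic (L := L) (rpz_jF L N)⁻¹
  obtain ⟨D1, hB1, hL1, hR1⟩ := mzrh_rs_chart A hℓN hA hπ hres H1 halg1 (rpz_beta_jF N L)
    (rpm_j_mem_int A N) (rpz_red_j_transcendental A)
  obtain ⟨D2, hB2, hL2, hR2⟩ := mzrh_rs_chart A hℓN hA hπ hres H2 halg2
    (by rw [map_inv₀, rpz_beta_jF]) (rpm_jinv_mem_int A N) (rpz_red_jinv_transcendental A)
  obtain ⟨rc, ok1, ok2, hrc, hspec⟩ := mzrh_rs_of_data A N hℓN hA D1 D2 hL1 hR1 hL2 hR2
  exact ⟨D1, D2, rc, hB1, hB2, ok1, ok2, hrc, hspec⟩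

/-- **(R-SPEC)**: for every level `N`, every prime `ℓ ∤ N` and every place `A` of `Q̄` over `ℓ`:
chart data `D1` (coordinate `j`), `D2` (coordinate `j⁻¹`) with the chart rings `mzrh_rs_B` over the
cyclotomic base level `K₀ = ebf_K0 ℓ`, both charts satisfying the three chart statements, and an
EXPLICIT place reduction `rc` with the centre description `rpg_Spec`. -/
theorem mzrh_rs_spec (hℓN : ¬ ℓ ∣ N) (A : ValuationSubring Kbar) (hA : A.LiesOverPrime ℓ) :
    ∃ (D1 : rpm_ChartData A N (br_jBar N)) (D2 : rpm_ChartData A N (br_jBar N)⁻¹)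
      (rc : Place Kbar (Fbar N) →
        Place (IsLocalRing.ResidueField A)
          ↥(modularFunctionFieldFullC (IsLocalRing.ResidueField A) N)),
      D1.B = mzrh_rs_B A N ↥(ebf_K0 ℓ) (rpz_jF ↥(ebf_K0 ℓ) N) ∧
        D2.B = mzrh_rs_B A N ↥(ebf_K0 ℓ) (rpz_jF ↥(ebf_K0 ℓ) N)⁻¹ ∧
        rpg_ChartOK D1.chart ∧ rpg_ChartOK D2.chart ∧ IsPlaceReductionModL A N rc ∧
          ∀ P, rpg_Spec D1.chart D2.chart P (rc P) := by
  haveI : IsDiscreteValuationRing ↥(rpz_O0 A ↥(ebf_K0 ℓ)) := ebf_isDVR A ℓ hA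
  obtain ⟨h1, h2⟩ := rpw_base_level0 N hℓN A hA
  refine mzrh_rs_spec_of_level0 N A hℓN hA (ebf_irreducible A ℓ hA) ?_
    (rpz_level0_of_rpn (A.comap (algebraMap ↥(ebf_K0 ℓ) Kbar)) N h1)
    (rpz_level0_of_rpn (A.comap (algebraMap ↥(ebf_K0 ℓ) Kbar)) N h2)
  intro a
  obtain ⟨o, ho, hoK, hres⟩ := ebf_residue_repr A ℓ hA a
  refine ⟨⟨o, hoK⟩, ho, ?_⟩
  change (a : Kbar) - o ∈ A.nonunits
  rw [ValuationSubring.mem_nonunits_iff_exists_mem_maximalIdeal]
  refine ⟨sub_mem a.2 ho, ?_⟩
  rw [← IsLocalRing.residue_eq_zero_iff]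
  have : (⟨(a : Kbar) - o, sub_mem a.2 ho⟩ : A) = a - ⟨o, ho⟩ := rfl
  rw [this, map_sub, hres, sub_self]

end Spec

/-! ### corollaries for the consumers -/

section Consumers

variable {Kb : Type*} [Field Kb] {A : ValuationSubring Kb}
variable {FF : Type*} [Field FF] [Algebra Kb FF]
variable {k : Type*} [Field k] {Ft : Type*} [Field Ft] [Algebra k Ft]
variable {C1 C2 : rp_Chart A FF k Ft} {rc : Place Kb FF → Place k Ft}

/-- a place of the first chart reduces to its centre on the first chart. -/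
theorem mzrh_rs_eq_of_center1 (ok1 : rpg_ChartOK C1) (hspec : ∀ P, rpg_Spec C1 C2 P (rc P))
    {P : Place Kb FF} {Q : Place k Ft} (hP : C1.InChart P) (hQ : C1.FinRed Q)
    (hc : C1.CenterAt P Q) : rc P = Q :=
  ok1.center_unique P _ Q hP ((hspec P).1 hP).1 hQ ((hspec P).1 hP).2 hc

/-- a place outside the first chart reduces to its centre on the second chart. -/
theorem mzrh_rs_eq_of_center2 (ok2 : rpg_ChartOK C2) (hspec : ∀ P, rpg_Spec C1 C2 P (rc P))
    {P : Place Kb FF} {Q : Place k Ft} (hP : ¬ C1.InChart P) (hQ : C2.FinRed Q)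
    (hc : C2.CenterAt P Q) : rc P = Q :=
  ok2.center_unique P _ Q ((hspec P).2 hP).1 ((hspec P).2 hP).2.1 hQ ((hspec P).2 hP).2.2 hc

/-- **values reduce**: if the chart function `b` has the value `c : A` at `P` and `Q` is the
centre of `P`, then the reduction of `b` has the value `res c` at `Q`. -/
theorem mzrh_rs_value (C : rp_Chart A FF k Ft) {P : Place Kb FF} {Q : Place k Ft}
    (hc : C.CenterAt P Q) (b : C.B) (c : A)
    (h : (b : FF) - algebraMap Kb FF (c : Kb) ∈ P.toValuationSubring.nonunits) :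
    C.red b - algebraMap k Ft (C.res c) ∈ Q.toValuationSubring.nonunits := by
  set b' : C.B := b - ⟨algebraMap Kb FF (c : Kb), C.const_mem c⟩ with hb'
  have h0 : ((b' : C.B) : FF) - algebraMap Kb FF (((0 : A) : A) : Kb) ∈
      P.toValuationSubring.nonunits := by
    have : ((b' : C.B) : FF) - algebraMap Kb FF (((0 : A) : A) : Kb) =
        (b : FF) - algebraMap Kb FF (c : Kb) := by
      rw [hb']
      simp
    rw [this]
    exact h
  have h1 := (hc b' 0 h0).1 (by
    rw [ValuationSubring.mem_nonunits_iff_or]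
    left
    rfl)
  rwa [hb', map_sub, C.red_const] at h1

/-- the place reduction of a place of the first chart: values of chart functions reduce. -/
theorem mzrh_rs_value1 (hspec : ∀ P, rpg_Spec C1 C2 P (rc P)) {P : Place Kb FF}
    (hP : C1.InChart P) (b : C1.B) (c : A)
    (h : (b : FF) - algebraMap Kb FF (c : Kb) ∈ P.toValuationSubring.nonunits) :
    C1.red b - algebraMap k Ft (C1.res c) ∈ (rc P).toValuationSubring.nonunits :=
  mzrh_rs_value C1 ((hspec P).1 hP).2 b c h

/-- the place reduction of a place outside the first chart: values of functions of the second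
chart reduce. -/
theorem mzrh_rs_value2 (hspec : ∀ P, rpg_Spec C1 C2 P (rc P)) {P : Place Kb FF}
    (hP : ¬ C1.InChart P) (b : C2.B) (c : A)
    (h : (b : FF) - algebraMap Kb FF (c : Kb) ∈ P.toValuationSubring.nonunits) :
    C2.red b - algebraMap k Ft (C2.res c) ∈ (rc P).toValuationSubring.nonunits :=
  mzrh_rs_value C2 ((hspec P).2 hP).2.2 b c h

end Consumers

end Fermat.Agent.MZ
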