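/-
Project MAZUR (S15), node [MZ-RH], the last wrapper (helper23): the seam `mzrh_SeamPush` of
`MZ/RH/Main.lean` is proved, hence `mzt_RH_stmt`.

* (I1) `mzrh_pf_al_mem` : the inclusion `α : F̄_N → F̄_{N l'}` maps the chart ring
  `mzrh_rs_B A N L x₀` into `mzrh_rs_B A (N l') L (α₀ x₀)` (`α₀ = mzrh_alC L N l'` the inclusion
  of the level-`0` function fields): constants go to constants, base changes of integral elements
  go to base changes of integral elements.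
* `mzrh_push : mzrh_SeamPush` : `mzrh_rs_spec` (R-SPEC) at the two levels, (I1) for the two charts,
  `mzrh_pm_push_div` (helper5).
* `mzrh_main : mzt_RH_stmt`.
Prefix `mzrh_pf_` (and the two final names `mzrh_push`, `mzrh_main`).
-/
import Mathlib
import Fermat.Agent.MZ.RH.RedSpec
import Fermat.Agent.MZ.RH.PushMod
import Fermat.Agent.MZ.RH.Main

set_option autoImplicit false
set_option linter.unusedSectionVars false
set_option linter.style.haveILetI false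

attribute [local instance] Fermat.Agent.JT3.rpm_instAlgSubring Fermat.Agent.JT3.rpm_instAlgFt
set_option synthInstance.maxHeartbeats 400000
set_option maxHeartbeats 1000000

namespace Fermat.Agent.MZ

open AlgebraicCurve Polynomial ModularCurve IntermediateField
open Fermat.Agent.S24 Fermat.Agent.JT3

section I1

variable (A : ValuationSubring Kbar) (N l' : ℕ) [NeZero N] [NeZero l']
variable (L : Type*) [Field L] [Algebra ℚ L] [Algebra L Kbar] [IsScalarTower ℚ L Kbar]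

/-- `α` commutes with the base change of constants. -/
theorem mzrh_pf_al_beta (b₀ : ↥(lg_F L N)) :
    heckeAlphaBar Kbar N l' (rpz_beta N L b₀) = rpz_beta (N * l') L (mzrh_alC L N l' b₀) := by
  apply Subtype.ext
  rw [coe_heckeAlphaBar, rpz_beta_coe, rpz_beta_coe, mzrh_coe_alC]

theorem mzrh_pf_al_jF : mzrh_alC L N l' (rpz_jF L N) = rpz_jF L (N * l') := Subtype.ext rfl

/-- the level-`0` charts are compatible with the inclusion. -/
theorem mzrh_pf_chart_mem {x₀ b₀ : ↥(lg_F L N)}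
    (hb₀ : b₀ ∈ fc_chart ↥(rpz_O0 A L) ({x₀} : Set ↥(lg_F L N))) :
    mzrh_alC L N l' b₀ ∈
      fc_chart ↥(rpz_O0 A L) ({mzrh_alC L N l' x₀} : Set ↥(lg_F L (N * l'))) := by
  rw [fc_mem_chart] at hb₀ ⊢
  set α₀ : ↥(lg_F L N) →ₐ[↥(rpz_O0 A L)] ↥(lg_F L (N * l')) :=
    (mzrh_alC L N l').restrictScalars ↥(rpz_O0 A L) with hα₀
  have hmap : (Algebra.adjoin ↥(rpz_O0 A L) ({x₀} : Set ↥(lg_F L N))).map α₀ =
      Algebra.adjoin ↥(rpz_O0 A L) ({mzrh_alC L N l' x₀} : Set ↥(lg_F L (N * l'))) := by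
    rw [AlgHom.map_adjoin, Set.image_singleton]
    rfl
  have hmem : ∀ y : ↥(Algebra.adjoin ↥(rpz_O0 A L) ({x₀} : Set ↥(lg_F L N))),
      α₀ (y : ↥(lg_F L N)) ∈
        Algebra.adjoin ↥(rpz_O0 A L) ({mzrh_alC L N l' x₀} : Set ↥(lg_F L (N * l'))) := by
    intro y
    rw [← hmap]
    exact Subalgebra.mem_map.2 ⟨y, y.2, rfl⟩
  exact IsIntegral.map_of_comp_eq
    (R := ↥(Algebra.adjoin ↥(rpz_O0 A L) ({x₀} : Set ↥(lg_F L N)))) (S := ↥(lg_F L N))
    (T := ↥(Algebra.adjoin ↥(rpz_O0 A L) ({mzrh_alC L N l' x₀} : Set ↥(lg_F L (N * l')))))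
    (U := ↥(lg_F L (N * l')))
    ((α₀.toRingHom.comp (Subalgebra.val _).toRingHom).codRestrict _ hmem)
    (mzrh_alC L N l').toRingHom (by ext r; rfl) hb₀

/-- **(I1)**: `α` maps the chart ring at level `N` into the chart ring at level `N l'`. -/
theorem mzrh_pf_al_mem {x₀ : ↥(lg_F L N)} {b : Fbar N} (hb : b ∈ mzrh_rs_B A N L x₀) :
    heckeAlphaBar Kbar N l' b ∈ mzrh_rs_B A (N * l') L (mzrh_alC L N l' x₀) := by
  refine mzrh_rs_B_induction A (p := fun b => heckeAlphaBar Kbar N l' b ∈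
      mzrh_rs_B A (N * l') L (mzrh_alC L N l' x₀)) ?_ ?_ ?_ ?_ ?_ hb
  · intro a
    rw [AlgHom.commutes]
    exact mzrh_rs_const_mem_B A _ a
  · intro b₀ hb₀
    rw [mzrh_pf_al_beta]
    exact mzrh_rs_beta_mem_B A (mzrh_pf_chart_mem A N l' L hb₀)
  · intro x y hx hy
    rw [map_add]
    exact add_mem hx hy
  · intro x hx
    rw [map_neg]
    exact neg_mem hx
  · intro x y hx hy
    rw [map_mul]
    exact mul_mem hx hy

end I1

/-- **the seam (PUSH-div)** of `MZ/RH/Main.lean`. -/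
theorem mzrh_push : mzrh_SeamPush := by
  intro N l' ℓ _ _ hℓ hl' hℓN _ hne A hA h h' hα hαC
  haveI : Fact ℓ.Prime := ⟨hℓ⟩
  have hℓl : ¬ ℓ ∣ l' := fun hd => hne ((Nat.prime_dvd_prime_iff_eq hℓ hl').mp hd).symm
  have hℓM : ¬ ℓ ∣ N * l' := mzrh_not_dvd_mul N l' hℓN hℓl
  obtain ⟨D1, D2, rc, hB1, hB2, ok1, ok2, hrc, hs⟩ := mzrh_rs_spec N hℓN A hA
  obtain ⟨D1', D2', rc', hB1', hB2', -, -, hrc', hs'⟩ := mzrh_rs_spec (N * l') hℓM A hA
  refine mzrh_pm_push_div h h' hα hαC D1 D2 D1' D2' ok1 ok2 ?_ ?_ hrc hrc' hs hs'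
  · intro b hb
    rw [hB1] at hb
    rw [hB1', ← mzrh_pf_al_jF N l' ↥(ebf_K0 ℓ)]
    exact mzrh_pf_al_mem A N l' ↥(ebf_K0 ℓ) hb
  · intro b hb
    rw [hB2] at hb
    rw [hB2', ← mzrh_pf_al_jF N l' ↥(ebf_K0 ℓ), ← map_inv₀]
    exact mzrh_pf_al_mem A N l' ↥(ebf_K0 ℓ) hb

/-- **[MZ-RH]**: the kernel of the reduction `J₀(N)(Q̄) → Pic⁰(X̃₀(N))` at a place `A ∣ ℓ`, `ℓ ∤ N`,
is stable under the Hecke operators `T_{ℓ'}`, `ℓ' ∤ N ℓ`. -/
theorem mzrh_main : mzt_RH_stmt := mzrh_main_of_push mzrh_push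

end Fermat.Agent.MZ
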