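/-
MAZUR / node [MZ-RH] (kernel stability of the reduction map under the Hecke operators),
cell (PUSH) ON PLACES, abstract form (helper28).

Two models over the same valuation ring `A ⊆ Kb`, described by two charts each
(`rp_Chart`, `JT3/PlaceMap/Defs.lean`): `C1 C2` for `FF / Kb` with reduction `Ft / k`, and
`C1' C2'` for `FF' / Kb` with reduction `Ft' / k`.  A morphism of the generic fibres
`al : FF →ₐ[Kb] FF'` and one of the special fibres `alC : Ft →ₐ[k] Ft'` which are compatible with
the charts:

* (I1) `al` maps the chart ring `Ci.B` into `Ci'.B`;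
* (I2) `Ci'.red (al b) = alC (Ci.red b)`;
* (I3) the first chart of the target is the preimage of the first chart of the source
  (`C1.InChart (P' ∘ al) → C1'.InChart P'`).

Then the centre description `rpg_Spec` of the place maps is compatible with restriction of places:
`rpg_Spec C1' C2' P' Q'` and `rpg_Spec C1 C2 (P'.restrictAlong al) Q` force
`Q = Q'.restrictAlong alC`  (`mzrh_pp_push`), i.e. for place maps `rc`, `rc'` satisfying `rpg_Spec`
  `rc (P'.restrictAlong al) = (rc' P').restrictAlong alC`     (`mzrh_pp_push_map`).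
Prefix `mzrh_pp_`.
-/
import Mathlib
import Fermat.Prelude.Def_AlgebraicCurve_Correspondence
import Fermat.Agent.JT3.PlaceMap.Global

set_option autoImplicit false
set_option linter.unusedSectionVars false

namespace Fermat.Agent.MZ

open AlgebraicCurve Fermat.Agent.JT3

section Restrict

variable {K F F' : Type*} [Field K] [Field F] [Field F'] [Algebra K F] [Algebra K F']
variable (φ : F →ₐ[K] F') (hφ : φ.toRingHom.IsIntegral)

/-- membership in the valuation ring of a restricted place. -/
theorem mzrh_pp_mem_restrictAlong (w : Place K F') (f : F) :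
    f ∈ (w.restrictAlong φ hφ).toValuationSubring ↔ φ f ∈ w.toValuationSubring :=
  Iff.rfl

/-- membership in the maximal ideal of a restricted place. -/
theorem mzrh_pp_mem_nonunits_restrictAlong (w : Place K F') (f : F) :
    f ∈ (w.restrictAlong φ hφ).toValuationSubring.nonunits ↔
      φ f ∈ w.toValuationSubring.nonunits := by
  rw [ValuationSubring.mem_nonunits_iff_or, ValuationSubring.mem_nonunits_iff_or,
    mzrh_pp_mem_restrictAlong, map_inv₀, map_eq_zero]

end Restrict

section Charts

variable {Kb : Type*} [Field Kb] {A : ValuationSubring Kb}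
variable {FF FF' : Type*} [Field FF] [Field FF'] [Algebra Kb FF] [Algebra Kb FF']
variable {k : Type*} [Field k] {Ft Ft' : Type*} [Field Ft] [Field Ft'] [Algebra k Ft]
  [Algebra k Ft']
variable (al : FF →ₐ[Kb] FF') (hal : al.toRingHom.IsIntegral)
variable (alC : Ft →ₐ[k] Ft') (halC : alC.toRingHom.IsIntegral)

section OneChart

variable {C : rp_Chart A FF k Ft} {C' : rp_Chart A FF' k Ft'}
  (h1 : ∀ b ∈ C.B, al b ∈ C'.B)
  (h2 : ∀ b : C.B, C'.red ⟨al b, h1 b b.2⟩ = alC (C.red b))

include h1 in
/-- a place in the chart upstairs restricts to a place in the chart downstairs. -/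
theorem mzrh_pp_inChart (P' : Place Kb FF') (h : C'.InChart P') :
    C.InChart (P'.restrictAlong al hal) := by
  intro b hb
  obtain ⟨c, hc⟩ := h (al b) (h1 b hb)
  refine ⟨c, ?_⟩
  rw [mzrh_pp_mem_nonunits_restrictAlong, map_sub, AlgHom.commutes]
  exact hc

include h2 in
/-- a place finite on the reduced chart upstairs restricts to one finite on the reduced chart
downstairs. -/
theorem mzrh_pp_finRed (Q' : Place k Ft') (h : C'.FinRed Q') :
    C.FinRed (Q'.restrictAlong alC halC) := by
  intro b
  rw [mzrh_pp_mem_restrictAlong, ← h2 b]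
  exact h _

include h2 in
/-- centres restrict to centres. -/
theorem mzrh_pp_centerAt (P' : Place Kb FF') (Q' : Place k Ft') (h : C'.CenterAt P' Q') :
    C.CenterAt (P'.restrictAlong al hal) (Q'.restrictAlong alC halC) := by
  intro b c hbc
  rw [mzrh_pp_mem_nonunits_restrictAlong, map_sub, AlgHom.commutes] at hbc
  have := h ⟨al b, h1 b b.2⟩ c hbc
  rw [this, h2 b, mzrh_pp_mem_nonunits_restrictAlong]

end OneChart

variable {C1 C2 : rp_Chart A FF k Ft} {C1' C2' : rp_Chart A FF' k Ft'}
  (h11 : ∀ b ∈ C1.B, al b ∈ C1'.B)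
  (h12 : ∀ b : C1.B, C1'.red ⟨al b, h11 b b.2⟩ = alC (C1.red b))
  (h21 : ∀ b ∈ C2.B, al b ∈ C2'.B)
  (h22 : ∀ b : C2.B, C2'.red ⟨al b, h21 b b.2⟩ = alC (C2.red b))

include h12 h22 in
/-- **(PUSH) on places, pointwise form**: the centre descriptions at the two levels are compatible
with restriction of places.  Only `center_unique` of the lower charts is used. -/
theorem mzrh_pp_push'
    (u1 : ∀ (P : Place Kb FF) (Q Q' : Place k Ft), C1.InChart P → C1.FinRed Q → C1.FinRed Q' →
      C1.CenterAt P Q → C1.CenterAt P Q' → Q = Q')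
    (u2 : ∀ (P : Place Kb FF) (Q Q' : Place k Ft), C2.InChart P → C2.FinRed Q → C2.FinRed Q' →
      C2.CenterAt P Q → C2.CenterAt P Q' → Q = Q')
    (P' : Place Kb FF') (h3 : C1.InChart (P'.restrictAlong al hal) → C1'.InChart P')
    {Q : Place k Ft} {Q' : Place k Ft'}
    (hs' : rpg_Spec C1' C2' P' Q') (hs : rpg_Spec C1 C2 (P'.restrictAlong al hal) Q) :
    Q = Q'.restrictAlong alC halC := by
  by_cases h : C1'.InChart P'
  · obtain ⟨hF', hC'⟩ := hs'.1 h
    have hin : C1.InChart (P'.restrictAlong al hal) := mzrh_pp_inChart al hal h11 P' h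
    obtain ⟨hF, hC⟩ := hs.1 hin
    exact u1 _ _ _ hin hF (mzrh_pp_finRed al alC halC h11 h12 Q' hF') hC
      (mzrh_pp_centerAt al hal alC halC h11 h12 P' Q' hC')
  · obtain ⟨hin', hF', hC'⟩ := hs'.2 h
    have hnin : ¬ C1.InChart (P'.restrictAlong al hal) := fun hh => h (h3 hh)
    obtain ⟨hin, hF, hC⟩ := hs.2 hnin
    exact u2 _ _ _ hin hF (mzrh_pp_finRed al alC halC h21 h22 Q' hF') hC
      (mzrh_pp_centerAt al hal alC halC h21 h22 P' Q' hC')

include h12 h22 in
/-- **(PUSH) on places, pointwise form**, with the bundled chart hypotheses of node E. -/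
theorem mzrh_pp_push (ok1 : rpg_ChartOK C1) (ok2 : rpg_ChartOK C2)
    (P' : Place Kb FF') (h3 : C1.InChart (P'.restrictAlong al hal) → C1'.InChart P')
    {Q : Place k Ft} {Q' : Place k Ft'}
    (hs' : rpg_Spec C1' C2' P' Q') (hs : rpg_Spec C1 C2 (P'.restrictAlong al hal) Q) :
    Q = Q'.restrictAlong alC halC :=
  mzrh_pp_push' al hal alC halC h11 h12 h21 h22 ok1.center_unique ok2.center_unique P' h3 hs' hs

include h12 h22 in
/-- **(PUSH) on places**: place maps described by `rpg_Spec` at the two levels commute with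
restriction of places along `al` / `alC`. -/
theorem mzrh_pp_push_map (ok1 : rpg_ChartOK C1) (ok2 : rpg_ChartOK C2)
    (h3 : ∀ P' : Place Kb FF', C1.InChart (P'.restrictAlong al hal) → C1'.InChart P')
    {rc : Place Kb FF → Place k Ft} {rc' : Place Kb FF' → Place k Ft'}
    (hrc : ∀ P, rpg_Spec C1 C2 P (rc P)) (hrc' : ∀ P', rpg_Spec C1' C2' P' (rc' P'))
    (P' : Place Kb FF') :
    rc (P'.restrictAlong al hal) = (rc' P').restrictAlong alC halC :=
  mzrh_pp_push al hal alC halC h11 h12 h21 h22 ok1 ok2 P' (h3 P') (hrc' P') (hrc _)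

/-- (I3) from a coordinate: if the first charts are "the locus where `x` has a value in `A`"
(`covP` of the chart data) and `al x = x'`, then the first chart upstairs is the preimage of the
first chart downstairs. -/
theorem mzrh_pp_inChart_of_coord {x : FF} {x' : FF'} (hx : x ∈ C1.B) (hxx' : al x = x')
    (hcov' : ∀ P' : Place Kb FF',
      (∃ c : A, x' - algebraMap Kb FF' (c : Kb) ∈ P'.toValuationSubring.nonunits) →
        C1'.InChart P')
    (P' : Place Kb FF') (h : C1.InChart (P'.restrictAlong al hal)) : C1'.InChart P' := by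
  obtain ⟨c, hc⟩ := h x hx
  refine hcov' P' ⟨c, ?_⟩
  rw [mzrh_pp_mem_nonunits_restrictAlong, map_sub, AlgHom.commutes, hxx'] at hc
  exact hc

end Charts

end Fermat.Agent.MZ
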