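/-
MAZUR / node [MZ-RH], cell (I1)-(I3) (helper28): THE DEGENERACY MAP `α` AND THE CHARTS OF NODE E.

`α = heckeAlphaBar Q̄ N l' : F̄_N → F̄_{N l'}` (the inclusion), `α̃ = mzrh_alC k_A N l'`,
`α₀ = mzrh_alC L N l'` on the base level `lg_F L N = L(j(q^d) : d ∣ N)`.

* `mzrh_ra_beta_alC`   : `β_{N l'} ∘ α₀ = α ∘ β_N` (base change of constants commutes with `α`);
* `mzrh_ra_chart_map`  : (I1) `α` maps the chart ring `A[β_N (fc_chart O₀ {x₀})]` of level `N` into
  the chart ring `A[β_{N l'} (fc_chart O₀ {α₀ x₀})]` of level `N l'`;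
* `mzrh_ra_mem_int`, `mzrh_ra_intRed` : (I2) `α` preserves q-integrality and commutes with the
  reduction of q-expansions: `rpg_intRed (α f) = α̃ (rpg_intRed f)`;
* `mzrh_ra_alpha_jBar`, `mzrh_ra_alC_jF` : `α j = j`;
* **`mzrh_ra_push`** : (PUSH) ON PLACES for chart data `D1 D2` (level `N`), `D1' D2'`
  (level `N l'`) with coordinates `j, j⁻¹` such that `α (Di.B) ⊆ Di'.B`, and place maps `rc`, `rc'`
  satisfying `rpg_Spec`:  `rc (P'.restrictAlong α) = (rc' P').restrictAlong α̃`;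
* `mzrh_ra_push_of_eq` : the same with the chart rings given as in (R-SPEC)
  (`Di.B = A[β_N (fc_chart O₀ {j^{±1}})]`).
Prefix `mzrh_ra_`.
-/
import Mathlib
import Fermat.Agent.MZ.RH.PushPl
import Fermat.Agent.MZ.RH.TowerModL
import Fermat.Agent.JT3.PlaceMap.Final

set_option autoImplicit false
set_option linter.unusedSectionVars false
set_option linter.style.haveILetI false

noncomputable section

namespace Fermat.Agent.MZ

open ModularCurve AlgebraicCurve IntermediateField HahnSeries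
open Fermat.Agent.JT3 Fermat.Agent.S24

attribute [local instance] Fermat.Agent.JT3.rpm_instAlgSubring Fermat.Agent.JT3.rpm_instAlgFt
set_option synthInstance.maxHeartbeats 400000

/-! ### base change of constants commutes with `α` -/

section Beta

variable (N l' : ℕ) [NeZero N] [NeZero l']
  (L : Type*) [Field L] [Algebra ℚ L] [Algebra L Kbar] [IsScalarTower ℚ L Kbar]

theorem mzrh_ra_beta_alC (y : ↥(lg_F L N)) :
    rpz_beta (N * l') L (mzrh_alC L N l' y) =
      heckeAlphaBar Kbar N l' (rpz_beta N L y) := by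
  apply Subtype.ext
  rw [rpz_beta_coe, mzrh_coe_alC, coe_heckeAlphaBar, rpz_beta_coe]

theorem mzrh_ra_alC_jF : mzrh_alC L N l' (rpz_jF L N) = rpz_jF L (N * l') :=
  Subtype.ext rfl

theorem mzrh_ra_alpha_jBar : heckeAlphaBar Kbar N l' (br_jBar N) = br_jBar (N * l') :=
  Subtype.ext rfl

end Beta

/-! ### (I1): `α` maps charts to charts -/

section ChartMap

variable (A : ValuationSubring Kbar) (N l' : ℕ) [NeZero N] [NeZero l']
  (L : Type*) [Field L] [Algebra ℚ L] [Algebra L Kbar] [IsScalarTower ℚ L Kbar]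

set_option maxHeartbeats 1000000 in
/-- `α₀` maps the chart `fc_chart O₀ {x₀}` of level `N` into the chart `fc_chart O₀ {α₀ x₀}` of
level `N l'` (integrality is preserved by ring homomorphisms). -/
theorem mzrh_ra_fc_chart_map (x₀ b₀ : ↥(lg_F L N))
    (hb₀ : b₀ ∈ fc_chart ↥(rpz_O0 A L) ({x₀} : Set ↥(lg_F L N))) :
    mzrh_alC L N l' b₀ ∈
      fc_chart ↥(rpz_O0 A L) ({mzrh_alC L N l' x₀} : Set ↥(lg_F L (N * l'))) := by
  haveI : IsScalarTower ↥(rpz_O0 A L) L ↥(lg_F L N) :=
    IsScalarTower.of_algebraMap_eq fun _ => rfl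
  haveI : IsScalarTower ↥(rpz_O0 A L) L ↥(lg_F L (N * l')) :=
    IsScalarTower.of_algebraMap_eq fun _ => rfl
  rw [fc_mem_chart] at hb₀ ⊢
  -- `α₀` as an `O₀`-algebra homomorphism
  let a0 : ↥(lg_F L N) →ₐ[↥(rpz_O0 A L)] ↥(lg_F L (N * l')) :=
    (mzrh_alC L N l').restrictScalars ↥(rpz_O0 A L)
  have hmap : ∀ r : ↥(Algebra.adjoin ↥(rpz_O0 A L) ({x₀} : Set ↥(lg_F L N))),
      a0 (r : ↥(lg_F L N)) ∈
        Algebra.adjoin ↥(rpz_O0 A L) ({mzrh_alC L N l' x₀} : Set ↥(lg_F L (N * l'))) := by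
    intro r
    have h1 : a0 (r : ↥(lg_F L N)) ∈
        (Algebra.adjoin ↥(rpz_O0 A L) ({x₀} : Set ↥(lg_F L N))).map a0 := ⟨r, r.2, rfl⟩
    rw [AlgHom.map_adjoin, Set.image_singleton] at h1
    exact h1
  let φ : ↥(Algebra.adjoin ↥(rpz_O0 A L) ({x₀} : Set ↥(lg_F L N))) →+*
      ↥(Algebra.adjoin ↥(rpz_O0 A L) ({mzrh_alC L N l' x₀} : Set ↥(lg_F L (N * l')))) :=
    { toFun := fun r => ⟨a0 (r : ↥(lg_F L N)), hmap r⟩
      map_one' := Subtype.ext (map_one a0)
      map_mul' := fun r s => Subtype.ext (map_mul a0 _ _)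
      map_zero' := Subtype.ext (map_zero a0)
      map_add' := fun r s => Subtype.ext (map_add a0 _ _) }
  have hcomp : (algebraMap ↥(Algebra.adjoin ↥(rpz_O0 A L)
        ({mzrh_alC L N l' x₀} : Set ↥(lg_F L (N * l')))) ↥(lg_F L (N * l'))).comp φ =
      (a0 : ↥(lg_F L N) →+* ↥(lg_F L (N * l'))).comp
        (algebraMap ↥(Algebra.adjoin ↥(rpz_O0 A L) ({x₀} : Set ↥(lg_F L N))) ↥(lg_F L N)) := by
    ext r
    rfl
  exact IsIntegral.map_of_comp_eq φ (a0 : ↥(lg_F L N) →+* ↥(lg_F L (N * l'))) hcomp hb₀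

/-- **(I1)**: `α` maps the chart ring of level `N` with coordinate `x₀` into the chart ring of
level `N l'` with coordinate `α₀ x₀`. -/
theorem mzrh_ra_chart_map (x₀ : ↥(lg_F L N)) (b : Fbar N)
    (hb : b ∈ rp_genRing A.toSubring
      ((rpz_beta N L) '' (fc_chart ↥(rpz_O0 A L) ({x₀} : Set ↥(lg_F L N)) : Set ↥(lg_F L N)))) :
    heckeAlphaBar Kbar N l' b ∈ rp_genRing A.toSubring
      ((rpz_beta (N * l') L) '' (fc_chart ↥(rpz_O0 A L)
        ({mzrh_alC L N l' x₀} : Set ↥(lg_F L (N * l'))) : Set ↥(lg_F L (N * l')))) := by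
  rw [rp_genRing] at hb
  induction hb using Subring.closure_induction with
  | mem s hs =>
    rcases hs with ⟨b₀, hb₀, rfl⟩ | ⟨c, hc, rfl⟩
    · refine Subring.subset_closure (Or.inl ⟨mzrh_alC L N l' b₀, ?_, ?_⟩)
      · exact mzrh_ra_fc_chart_map A N l' L x₀ b₀ hb₀
      · exact mzrh_ra_beta_alC N l' L b₀
    · refine Subring.subset_closure (Or.inr ⟨c, hc, ?_⟩)
      exact ((heckeAlphaBar Kbar N l').commutes c).symm
  | zero => rw [map_zero]; exact zero_mem _
  | one => rw [map_one]; exact one_mem _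
  | add s t _ _ hs ht => rw [map_add]; exact add_mem hs ht
  | neg s _ hs => rw [map_neg]; exact neg_mem hs
  | mul s t _ _ hs ht => rw [map_mul]; exact mul_mem hs ht

end ChartMap

/-! ### (I2): `α` commutes with the reduction of q-expansions -/

section IntRed

variable (A : ValuationSubring Kbar) (N l' : ℕ) [NeZero N] [NeZero l']

/-- `α` preserves q-integrality (with reduction in the reduced function field). -/
theorem mzrh_ra_mem_int {f : Fbar N}
    (hf : f ∈ rpg_intSubring A (IsLocalRing.residue A) N) :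
    heckeAlphaBar Kbar N l' f ∈ rpg_intSubring A (IsLocalRing.residue A) (N * l') := by
  obtain ⟨y, hy, hyk⟩ := hf
  exact ⟨y, by rw [hy, coe_heckeAlphaBar],
    full_degeneracyC_le (IsLocalRing.ResidueField A) (dvd_mul_right N l') hyk⟩

/-- **(I2)**: the reduction of `α f` is `α̃` of the reduction of `f`. -/
theorem mzrh_ra_intRed {f : Fbar N}
    (hf : f ∈ rpg_intSubring A (IsLocalRing.residue A) N)
    (hf' : heckeAlphaBar Kbar N l' f ∈ rpg_intSubring A (IsLocalRing.residue A) (N * l')) :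
    rpg_intRed A (IsLocalRing.residue A) (N * l') ⟨heckeAlphaBar Kbar N l' f, hf'⟩ =
      mzrh_alC (IsLocalRing.ResidueField A) N l'
        (rpg_intRed A (IsLocalRing.residue A) N ⟨f, hf⟩) := by
  apply Subtype.ext
  rw [mzrh_coe_alC]
  change coeffMap (IsLocalRing.residue A)
      (rpg_intLift A (IsLocalRing.residue A) (N * l') ⟨heckeAlphaBar Kbar N l' f, hf'⟩) =
    coeffMap (IsLocalRing.residue A) (rpg_intLift A (IsLocalRing.residue A) N ⟨f, hf⟩)
  congr 1
  refine rpg_intLift_eq A (IsLocalRing.residue A) (N * l') _ _ ?_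
  rw [(rpg_intLift_spec A (IsLocalRing.residue A) N ⟨f, hf⟩).1]
  exact (coe_heckeAlphaBar (L := Kbar) (N := N) (ℓ := l') f).symm

end IntRed

/-! ### (PUSH) on places for the chart data of node E -/

section Push

variable {A : ValuationSubring Kbar} {N l' : ℕ} [NeZero N] [NeZero l']

/-- **(PUSH) ON PLACES**: for chart data with coordinates `j`, `j⁻¹` at the levels `N` and `N l'`
such that `α` maps the chart rings of level `N` into those of level `N l'`, place maps described by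
`rpg_Spec` commute with restriction of places along `α` / `α̃`. -/
theorem mzrh_ra_push
    (D1 : rpm_ChartData A N (br_jBar N)) (D2 : rpm_ChartData A N (br_jBar N)⁻¹)
    (D1' : rpm_ChartData A (N * l') (br_jBar (N * l')))
    (D2' : rpm_ChartData A (N * l') (br_jBar (N * l'))⁻¹)
    (h11 : ∀ b ∈ D1.B, heckeAlphaBar Kbar N l' b ∈ D1'.B)
    (h21 : ∀ b ∈ D2.B, heckeAlphaBar Kbar N l' b ∈ D2'.B)
    (ok1 : rpg_ChartOK D1.chart) (ok2 : rpg_ChartOK D2.chart)
    (hF' : rp_FunField Kbar (Fbar (N * l')))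
    (hal : (heckeAlphaBar Kbar N l').toRingHom.IsIntegral)
    (halC : (mzrh_alC (IsLocalRing.ResidueField A) N l').toRingHom.IsIntegral)
    {rc : Place Kbar (Fbar N) →
      Place (IsLocalRing.ResidueField A) ↥(modularFunctionFieldFullC (IsLocalRing.ResidueField A) N)}
    {rc' : Place Kbar (Fbar (N * l')) →
      Place (IsLocalRing.ResidueField A)
        ↥(modularFunctionFieldFullC (IsLocalRing.ResidueField A) (N * l'))}
    (hrc : ∀ P, rpg_Spec D1.chart D2.chart P (rc P))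
    (hrc' : ∀ P', rpg_Spec D1'.chart D2'.chart P' (rc' P'))
    (P' : Place Kbar (Fbar (N * l'))) :
    rc (P'.restrictAlong (heckeAlphaBar Kbar N l') hal) =
      (rc' P').restrictAlong (mzrh_alC (IsLocalRing.ResidueField A) N l') halC := by
  refine mzrh_pp_push_map (C1 := D1.chart) (C2 := D2.chart) (C1' := D1'.chart) (C2' := D2'.chart)
    (heckeAlphaBar Kbar N l') hal (mzrh_alC (IsLocalRing.ResidueField A) N l') halC
    h11 ?_ h21 ?_ ok1 ok2 ?_ hrc hrc' P'
  · intro b
    rw [D1'.chart_red, D1.chart_red]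
    exact mzrh_ra_intRed A N l' (D1.le_int b.2) _
  · intro b
    rw [D2'.chart_red, D2.chart_red]
    exact mzrh_ra_intRed A N l' (D2.le_int b.2) _
  · intro P'' h
    exact mzrh_pp_inChart_of_coord (C1 := D1.chart) (C1' := D1'.chart)
      (heckeAlphaBar Kbar N l') hal D1.x_mem (mzrh_ra_alpha_jBar N l')
      (fun Q hQ => D1'.covP hF' Q hQ) P'' h

/-- **(PUSH) ON PLACES, against (R-SPEC)**: the same with the chart rings given as the base change
of the level-0 charts `fc_chart O₀ {j^{±1}}`, `O₀ = A ∩ L`. -/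
theorem mzrh_ra_push_of_eq
    (L : Type*) [Field L] [Algebra ℚ L] [Algebra L Kbar] [IsScalarTower ℚ L Kbar]
    (D1 : rpm_ChartData A N (br_jBar N)) (D2 : rpm_ChartData A N (br_jBar N)⁻¹)
    (D1' : rpm_ChartData A (N * l') (br_jBar (N * l')))
    (D2' : rpm_ChartData A (N * l') (br_jBar (N * l'))⁻¹)
    (hB1 : D1.B = rp_genRing A.toSubring ((rpz_beta N L) ''
      (fc_chart ↥(rpz_O0 A L) ({rpz_jF L N} : Set ↥(lg_F L N)) : Set ↥(lg_F L N))))
    (hB2 : D2.B = rp_genRing A.toSubring ((rpz_beta N L) ''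
      (fc_chart ↥(rpz_O0 A L) ({(rpz_jF L N)⁻¹} : Set ↥(lg_F L N)) : Set ↥(lg_F L N))))
    (hB1' : D1'.B = rp_genRing A.toSubring ((rpz_beta (N * l') L) ''
      (fc_chart ↥(rpz_O0 A L) ({rpz_jF L (N * l')} : Set ↥(lg_F L (N * l'))) :
        Set ↥(lg_F L (N * l')))))
    (hB2' : D2'.B = rp_genRing A.toSubring ((rpz_beta (N * l') L) ''
      (fc_chart ↥(rpz_O0 A L) ({(rpz_jF L (N * l'))⁻¹} : Set ↥(lg_F L (N * l'))) :
        Set ↥(lg_F L (N * l')))))
    (ok1 : rpg_ChartOK D1.chart) (ok2 : rpg_ChartOK D2.chart)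
    (hF' : rp_FunField Kbar (Fbar (N * l')))
    (hal : (heckeAlphaBar Kbar N l').toRingHom.IsIntegral)
    (halC : (mzrh_alC (IsLocalRing.ResidueField A) N l').toRingHom.IsIntegral)
    {rc : Place Kbar (Fbar N) →
      Place (IsLocalRing.ResidueField A) ↥(modularFunctionFieldFullC (IsLocalRing.ResidueField A) N)}
    {rc' : Place Kbar (Fbar (N * l')) →
      Place (IsLocalRing.ResidueField A)
        ↥(modularFunctionFieldFullC (IsLocalRing.ResidueField A) (N * l'))}
    (hrc : ∀ P, rpg_Spec D1.chart D2.chart P (rc P))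
    (hrc' : ∀ P', rpg_Spec D1'.chart D2'.chart P' (rc' P'))
    (P' : Place Kbar (Fbar (N * l'))) :
    rc (P'.restrictAlong (heckeAlphaBar Kbar N l') hal) =
      (rc' P').restrictAlong (mzrh_alC (IsLocalRing.ResidueField A) N l') halC := by
  refine mzrh_ra_push D1 D2 D1' D2' ?_ ?_ ok1 ok2 hF' hal halC hrc hrc' P'
  · intro b hb
    rw [hB1] at hb
    rw [hB1']
    have := mzrh_ra_chart_map A N l' L (rpz_jF L N) b hb
    rwa [mzrh_ra_alC_jF] at this
  · intro b hb
    rw [hB2] at hb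
    rw [hB2']
    have := mzrh_ra_chart_map A N l' L (rpz_jF L N)⁻¹ b hb
    rwa [map_inv₀, mzrh_ra_alC_jF] at this

end Push

end Fermat.Agent.MZ
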